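import Mathlib

/-!
# Row S15 — DESC leaf BASE, part 2 (helper322): Kummer classes of `ℚ`, arithmetic

Blueprint `coord/S15-DESC-blueprint.md` §2, the pieces `ψ_i = ω` and `r = 2`: which rational
numbers have all valuations away from `p` divisible by `r`.  Mathlib only.

* `nat_eq_pow_of_dvd`      : `n ≠ 0`, `r ∣ v_ℓ(n)` for all primes `ℓ` ⟹ `n = m ^ r`.
* `rat_eq_pow_of_dvd`      : `a ≠ 0`, `r ∣ v_ℓ(a)` for all primes `ℓ` ⟹ `a = ± b ^ r`.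
* `rat_eq_zpow_mul_pow`    : `a ≠ 0`, `r ∣ v_ℓ(a)` for all primes `ℓ ≠ p` ⟹
                             `a = ± p ^ v_p(a) · b ^ r`.
* `rat_eq_pow_mul_pow_odd` : `r` odd: `a = p ^ k · b ^ r` with `k < r`.
* `rat_eq_pow_mul_pow_two` : `r = 2`: `a = ε · p ^ k · b ^ 2`, `ε = ±1`, `k ≤ 1`.
* `rat_eq_pow_of_dvd_odd`, `rat_eq_sq_of_dvd_of_pos`, `rat_two_cases` : variants.
* `rat_dichotomy_odd`      : `r` an odd prime, `a₁, a₂` as above: `a₁ = b ^ r` or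
                             `a₂ = a₁ ^ m · b ^ r`  (the group of such classes is cyclic of order
                             dividing `r`, generated by `p`).
-/

set_option autoImplicit false

namespace Fermat.Agent.S15.H322

/-- A natural number all of whose prime valuations are divisible by `r` is an `r`-th power. -/
theorem nat_eq_pow_of_dvd {n r : ℕ} (hn : n ≠ 0)
    (h : ∀ ℓ : ℕ, ℓ.Prime → r ∣ padicValNat ℓ n) : ∃ m : ℕ, m ≠ 0 ∧ n = m ^ r := by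
  refine ⟨n.factorization.prod (fun ℓ k => ℓ ^ (k / r)), ?_, ?_⟩
  · rw [Finsupp.prod, Finset.prod_ne_zero_iff]
    intro ℓ hℓ
    rw [Nat.support_factorization] at hℓ
    exact pow_ne_zero _ (Nat.prime_of_mem_primeFactors hℓ).ne_zero
  · conv_lhs => rw [← Nat.prod_factorization_pow_eq_self hn]
    rw [Finsupp.prod, Finsupp.prod, ← Finset.prod_pow]
    refine Finset.prod_congr rfl (fun ℓ hℓ => ?_)
    rw [Nat.support_factorization] at hℓ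
    have hℓp := Nat.prime_of_mem_primeFactors hℓ
    have hd : r ∣ n.factorization ℓ := by
      rw [Nat.factorization_def n hℓp]
      exact h ℓ hℓp
    rw [← pow_mul, Nat.div_mul_cancel hd]

/-- A nonzero rational number all of whose prime valuations are divisible by `r` is, up to sign,
an `r`-th power. -/
theorem rat_eq_pow_of_dvd {a : ℚ} {r : ℕ} (ha : a ≠ 0)
    (h : ∀ ℓ : ℕ, ℓ.Prime → (r : ℤ) ∣ padicValRat ℓ a) :
    ∃ b : ℚ, b ≠ 0 ∧ (a = b ^ r ∨ a = -b ^ r) := by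
  have hnum : a.num ≠ 0 := Rat.num_ne_zero.mpr ha
  have hcop : a.num.natAbs.Coprime a.den := a.reduced
  have key : ∀ ℓ : ℕ, ℓ.Prime → r ∣ padicValNat ℓ a.num.natAbs ∧ r ∣ padicValNat ℓ a.den := by
    intro ℓ hℓ
    have : Fact ℓ.Prime := ⟨hℓ⟩
    have h1 := h ℓ hℓ
    rw [padicValRat_def, padicValInt] at h1
    by_cases hd : ℓ ∣ a.den
    · have hn : ¬ ℓ ∣ a.num.natAbs := fun hn =>
        hℓ.one_lt.ne' (Nat.eq_one_of_dvd_coprimes hcop hn hd)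
      have h0 : padicValNat ℓ a.num.natAbs = 0 := padicValNat.eq_zero_of_not_dvd hn
      rw [h0] at h1 ⊢
      refine ⟨dvd_zero _, ?_⟩
      have h2 : (r : ℤ) ∣ (padicValNat ℓ a.den : ℤ) := by
        have := (dvd_neg (a := (r : ℤ))).mpr h1
        simpa using this
      exact_mod_cast h2
    · have h0 : padicValNat ℓ a.den = 0 := padicValNat.eq_zero_of_not_dvd hd
      rw [h0] at h1 ⊢
      refine ⟨?_, dvd_zero _⟩
      have h2 : (r : ℤ) ∣ (padicValNat ℓ a.num.natAbs : ℤ) := by simpa using h1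
      exact_mod_cast h2
  obtain ⟨m₁, hm₁, e₁⟩ := nat_eq_pow_of_dvd (Int.natAbs_ne_zero.mpr hnum)
    (fun ℓ hℓ => (key ℓ hℓ).1)
  obtain ⟨m₂, hm₂, e₂⟩ := nat_eq_pow_of_dvd a.den_ne_zero (fun ℓ hℓ => (key ℓ hℓ).2)
  refine ⟨(m₁ : ℚ) / m₂, div_ne_zero (by exact_mod_cast hm₁) (by exact_mod_cast hm₂), ?_⟩
  have ha' : a = (a.num : ℚ) / (a.den : ℚ) := (Rat.num_div_den a).symm
  have hden : (a.den : ℚ) = (m₂ : ℚ) ^ r := by exact_mod_cast e₂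
  rcases Int.natAbs_eq a.num with hs | hs
  · left
    have hnumq : (a.num : ℚ) = (m₁ : ℚ) ^ r := by
      rw [hs, e₁]; push_cast; rfl
    rw [div_pow, ← hnumq, ← hden]
    exact ha'
  · right
    have hnumq : (a.num : ℚ) = -(m₁ : ℚ) ^ r := by
      rw [hs, e₁]; push_cast; rfl
    rw [div_pow, ← hden, ← neg_div, ← hnumq]
    exact ha'

/-- A nonzero rational number whose valuations at the primes `ℓ ≠ p` are divisible by `r` is
`± p ^ v_p(a) · b ^ r`. -/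
theorem rat_eq_zpow_mul_pow {a : ℚ} {r p : ℕ} (hp : p.Prime) (ha : a ≠ 0)
    (h : ∀ ℓ : ℕ, ℓ.Prime → ℓ ≠ p → (r : ℤ) ∣ padicValRat ℓ a) :
    ∃ b : ℚ, b ≠ 0 ∧ (a = (p : ℚ) ^ padicValRat p a * b ^ r ∨
      a = -((p : ℚ) ^ padicValRat p a * b ^ r)) := by
  have hp0 : (p : ℚ) ≠ 0 := by exact_mod_cast hp.ne_zero
  have hpk : (p : ℚ) ^ padicValRat p a ≠ 0 := zpow_ne_zero _ hp0
  set c : ℚ := a / (p : ℚ) ^ padicValRat p a with hc
  have hc0 : c ≠ 0 := div_ne_zero ha hpk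
  have hcv : ∀ ℓ : ℕ, ℓ.Prime → (r : ℤ) ∣ padicValRat ℓ c := by
    intro ℓ hℓ
    have : Fact ℓ.Prime := ⟨hℓ⟩
    rw [hc, padicValRat.div ha hpk, padicValRat.zpow]
    by_cases hℓp : ℓ = p
    · subst hℓp
      rw [padicValRat.self hℓ.one_lt, mul_one, sub_self]
      exact dvd_zero _
    · have : Fact p.Prime := ⟨hp⟩
      have h0 : padicValRat ℓ (p : ℚ) = 0 := by
        rw [padicValRat.of_nat, padicValNat_primes hℓp]; rfl
      rw [h0, mul_zero, sub_zero]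
      exact h ℓ hℓ hℓp
  obtain ⟨b, hb, hb'⟩ := rat_eq_pow_of_dvd hc0 hcv
  have hac : a = (p : ℚ) ^ padicValRat p a * c := by
    rw [hc, mul_div_cancel₀ _ hpk]
  refine ⟨b, hb, ?_⟩
  rcases hb' with h1 | h1
  · left; rw [← h1]; exact hac
  · right; rw [← mul_neg, ← h1]; exact hac

/-- `p ^ k` is `p ^ (k mod r)` times an `r`-th power. -/
theorem zpow_eq_pow_mod_mul_pow {p : ℚ} (hp0 : p ≠ 0) {r : ℕ} (hr : r ≠ 0) (k : ℤ) :
    ∃ k' : ℕ, k' < r ∧ (k' : ℤ) = k % (r : ℤ) ∧ p ^ k = p ^ k' * (p ^ (k / (r : ℤ))) ^ r := by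
  have hr0 : (r : ℤ) ≠ 0 := by exact_mod_cast hr
  have hm0 : 0 ≤ k % (r : ℤ) := Int.emod_nonneg k hr0
  have hmr : k % (r : ℤ) < r := Int.emod_lt_of_pos k (by positivity)
  refine ⟨(k % (r : ℤ)).toNat, by omega, Int.toNat_of_nonneg hm0, ?_⟩
  have e : k = ((k % (r : ℤ)).toNat : ℤ) + (k / (r : ℤ)) * r := by
    rw [Int.toNat_of_nonneg hm0]
    have := Int.emod_add_mul_ediv k r
    linarith [mul_comm (r : ℤ) (k / r)]
  conv_lhs => rw [e]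
  rw [zpow_add₀ hp0, zpow_natCast, zpow_mul, zpow_natCast]

/-- `r` odd: `a = p ^ k · b ^ r` with `0 ≤ k < r`. -/
theorem rat_eq_pow_mul_pow_odd {a : ℚ} {r p : ℕ} (hp : p.Prime) (hr : Odd r) (ha : a ≠ 0)
    (h : ∀ ℓ : ℕ, ℓ.Prime → ℓ ≠ p → (r : ℤ) ∣ padicValRat ℓ a) :
    ∃ k : ℕ, k < r ∧ (k : ℤ) = padicValRat p a % (r : ℤ) ∧
      ∃ b : ℚ, b ≠ 0 ∧ a = (p : ℚ) ^ k * b ^ r := by
  have hp0 : (p : ℚ) ≠ 0 := by exact_mod_cast hp.ne_zero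
  have hr0 : r ≠ 0 := fun h0 => by rw [h0] at hr; exact Nat.not_odd_zero hr
  obtain ⟨b, hb, hb'⟩ := rat_eq_zpow_mul_pow hp ha h
  obtain ⟨k, hk, hkmod, hkp⟩ := zpow_eq_pow_mod_mul_pow hp0 hr0 (padicValRat p a)
  have hq0 : (p : ℚ) ^ (padicValRat p a / (r : ℤ)) ≠ 0 := zpow_ne_zero _ hp0
  refine ⟨k, hk, hkmod, ?_⟩
  rcases hb' with h1 | h1
  · refine ⟨(p : ℚ) ^ (padicValRat p a / (r : ℤ)) * b, mul_ne_zero hq0 hb, ?_⟩
    calc a = (p : ℚ) ^ padicValRat p a * b ^ r := h1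
      _ = _ := by rw [hkp, mul_pow, mul_assoc]
  · refine ⟨-((p : ℚ) ^ (padicValRat p a / (r : ℤ)) * b), neg_ne_zero.mpr (mul_ne_zero hq0 hb), ?_⟩
    calc a = -((p : ℚ) ^ padicValRat p a * b ^ r) := h1
      _ = _ := by rw [hkp, hr.neg_pow, mul_pow, mul_assoc, mul_neg]

/-- `r = 2`: `a = ± p ^ k · b ^ 2` with `k ≤ 1`. -/
theorem rat_eq_pow_mul_pow_two {a : ℚ} {p : ℕ} (hp : p.Prime) (ha : a ≠ 0)
    (h : ∀ ℓ : ℕ, ℓ.Prime → ℓ ≠ p → (2 : ℤ) ∣ padicValRat ℓ a) :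
    ∃ k : ℕ, k < 2 ∧ (k : ℤ) = padicValRat p a % 2 ∧
      ∃ b : ℚ, b ≠ 0 ∧ (a = (p : ℚ) ^ k * b ^ 2 ∨ a = -((p : ℚ) ^ k * b ^ 2)) := by
  have hp0 : (p : ℚ) ≠ 0 := by exact_mod_cast hp.ne_zero
  obtain ⟨b, hb, hb'⟩ := rat_eq_zpow_mul_pow (r := 2) hp ha (by exact_mod_cast h)
  obtain ⟨k, hk, hkmod, hkp⟩ := zpow_eq_pow_mod_mul_pow hp0 (two_ne_zero) (padicValRat p a)
  have hq0 : (p : ℚ) ^ (padicValRat p a / ((2 : ℕ) : ℤ)) ≠ 0 := zpow_ne_zero _ hp0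
  refine ⟨k, hk, by exact_mod_cast hkmod,
    (p : ℚ) ^ (padicValRat p a / ((2 : ℕ) : ℤ)) * b, mul_ne_zero hq0 hb, ?_⟩
  rcases hb' with h1 | h1
  · left
    calc a = (p : ℚ) ^ padicValRat p a * b ^ 2 := h1
      _ = _ := by rw [hkp, mul_pow, mul_assoc]
  · right
    calc a = -((p : ℚ) ^ padicValRat p a * b ^ 2) := h1
      _ = _ := by rw [hkp, mul_pow, mul_assoc]

/-- `r` odd, all valuations divisible by `r`: an `r`-th power. -/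
theorem rat_eq_pow_of_dvd_odd {a : ℚ} {r : ℕ} (hr : Odd r) (ha : a ≠ 0)
    (h : ∀ ℓ : ℕ, ℓ.Prime → (r : ℤ) ∣ padicValRat ℓ a) : ∃ b : ℚ, b ≠ 0 ∧ a = b ^ r := by
  obtain ⟨b, hb, hb'⟩ := rat_eq_pow_of_dvd ha h
  rcases hb' with h1 | h1
  · exact ⟨b, hb, h1⟩
  · exact ⟨-b, neg_ne_zero.mpr hb, by rw [h1, hr.neg_pow]⟩

/-- A positive rational number with all valuations even is a square. -/
theorem rat_eq_sq_of_dvd_of_pos {a : ℚ} (ha : 0 < a)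
    (h : ∀ ℓ : ℕ, ℓ.Prime → (2 : ℤ) ∣ padicValRat ℓ a) : ∃ b : ℚ, b ≠ 0 ∧ a = b ^ 2 := by
  obtain ⟨b, hb, hb'⟩ := rat_eq_pow_of_dvd (r := 2) ha.ne' (by exact_mod_cast h)
  rcases hb' with h1 | h1
  · exact ⟨b, hb, h1⟩
  · exfalso
    have : 0 < b ^ 2 := by positivity
    linarith

/-- `r = 2`, the four classes `1, -1, p, -p`; positivity excludes the negative ones, an even
valuation at `p` excludes `± p`. -/
theorem rat_two_cases {a : ℚ} {p : ℕ} (hp : p.Prime) (ha : a ≠ 0)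
    (h : ∀ ℓ : ℕ, ℓ.Prime → ℓ ≠ p → (2 : ℤ) ∣ padicValRat ℓ a) :
    ∃ b : ℚ, b ≠ 0 ∧
      ((a = b ^ 2) ∨
        (a = -b ^ 2 ∧ a < 0) ∨
        (a = (p : ℚ) * b ^ 2 ∧ ¬ (2 : ℤ) ∣ padicValRat p a) ∨
        (a = -((p : ℚ) * b ^ 2) ∧ a < 0 ∧ ¬ (2 : ℤ) ∣ padicValRat p a)) := by
  have hp0 : (0 : ℚ) < p := by exact_mod_cast hp.pos
  obtain ⟨k, hk, hkmod, b, hb, hb'⟩ := rat_eq_pow_mul_pow_two hp ha h
  have hb2 : 0 < b ^ 2 := by positivity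
  refine ⟨b, hb, ?_⟩
  have hk01 : k = 0 ∨ k = 1 := by omega
  rcases hk01 with rfl | rfl
  · rcases hb' with h1 | h1
    · left; rw [h1]; ring
    · right; left
      refine ⟨by rw [h1]; ring, ?_⟩
      rw [h1]; simp only [pow_zero, one_mul]; linarith
  · have hodd : ¬ (2 : ℤ) ∣ padicValRat p a := by
      intro hd
      have := Int.emod_eq_zero_of_dvd hd
      rw [this] at hkmod
      norm_num at hkmod
    rcases hb' with h1 | h1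
    · right; right; left
      exact ⟨by rw [h1]; ring, hodd⟩
    · right; right; right
      refine ⟨by rw [h1]; ring, ?_, hodd⟩
      rw [h1]
      have : 0 < (p : ℚ) ^ 1 * b ^ 2 := by positivity
      linarith


/-- **Dimension ≤ 1 (odd `r`).**  For an odd prime `r` and two rational numbers whose valuations at
all primes `ℓ ≠ p` are divisible by `r`: the first is an `r`-th power, or the second is a power of
the first times an `r`-th power. -/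
theorem rat_dichotomy_odd {a₁ a₂ : ℚ} {r p : ℕ} (hp : p.Prime) (hr : r.Prime) (hr2 : r ≠ 2)
    (ha₁ : a₁ ≠ 0) (ha₂ : a₂ ≠ 0)
    (h₁ : ∀ ℓ : ℕ, ℓ.Prime → ℓ ≠ p → (r : ℤ) ∣ padicValRat ℓ a₁)
    (h₂ : ∀ ℓ : ℕ, ℓ.Prime → ℓ ≠ p → (r : ℤ) ∣ padicValRat ℓ a₂) :
    (∃ b : ℚ, b ≠ 0 ∧ a₁ = b ^ r) ∨ ∃ m : ℕ, m < r ∧ ∃ b : ℚ, b ≠ 0 ∧ a₂ = a₁ ^ m * b ^ r := by
  have hodd : Odd r := hr.odd_of_ne_two hr2
  have hp0 : (p : ℚ) ≠ 0 := by exact_mod_cast hp.ne_zero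
  obtain ⟨k₁, hk₁, -, b₁, hb₁, e₁⟩ := rat_eq_pow_mul_pow_odd hp hodd ha₁ h₁
  obtain ⟨k₂, hk₂, -, b₂, hb₂, e₂⟩ := rat_eq_pow_mul_pow_odd hp hodd ha₂ h₂
  by_cases hk0 : k₁ = 0
  · left
    refine ⟨b₁, hb₁, ?_⟩
    rw [e₁, hk0, pow_zero, one_mul]
  · right
    -- `k₁` is invertible modulo `r`: pick `m` with `m k₁ ≡ k₂`
    have : Fact r.Prime := ⟨hr⟩
    have hk₁' : (k₁ : ZMod r) ≠ 0 := by
      intro h0
      rw [ZMod.natCast_eq_zero_iff] at h0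
      exact hk0 (Nat.eq_zero_of_dvd_of_lt h0 hk₁)
    set m : ℕ := ((k₂ : ZMod r) * (k₁ : ZMod r)⁻¹).val with hm
    have hmr : m < r := ZMod.val_lt _
    have hcong : ((m * k₁ : ℕ) : ZMod r) = (k₂ : ZMod r) := by
      rw [Nat.cast_mul, hm, ZMod.natCast_zmod_val, mul_assoc, inv_mul_cancel₀ hk₁', mul_one]
    have hdvd : (r : ℤ) ∣ (k₂ : ℤ) - ((m * k₁ : ℕ) : ℤ) := by
      have := (ZMod.intCast_eq_intCast_iff_dvd_sub ((m * k₁ : ℕ) : ℤ) (k₂ : ℤ) r).mp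
        (by push_cast; exact_mod_cast hcong)
      exact this
    obtain ⟨t, ht⟩ := hdvd
    have hb₁m : b₁ ^ m ≠ 0 := pow_ne_zero _ hb₁
    have hpt : (p : ℚ) ^ t ≠ 0 := zpow_ne_zero _ hp0
    refine ⟨m, hmr, (p : ℚ) ^ t * b₂ / b₁ ^ m,
      div_ne_zero (mul_ne_zero hpt hb₂) hb₁m, ?_⟩
    have hk₂ : ((k₂ : ℕ) : ℤ) = ((m * k₁ : ℕ) : ℤ) + t * r := by
      rw [mul_comm t]; linarith
    have e3 : (p : ℚ) ^ k₂ = ((p : ℚ) ^ k₁) ^ m * ((p : ℚ) ^ t) ^ r := by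
      rw [← zpow_natCast (p : ℚ) k₂, hk₂, zpow_add₀ hp0, zpow_natCast, zpow_mul, zpow_natCast,
        ← pow_mul, mul_comm k₁ m]
    calc a₂ = (p : ℚ) ^ k₂ * b₂ ^ r := e₂
      _ = ((p : ℚ) ^ k₁) ^ m * ((p : ℚ) ^ t) ^ r * b₂ ^ r := by rw [e3]
      _ = ((p : ℚ) ^ k₁ * b₁ ^ r) ^ m * ((p : ℚ) ^ t * b₂ / b₁ ^ m) ^ r := by
          have hbb : (b₁ ^ r) ^ m = (b₁ ^ m) ^ r := by
            rw [← pow_mul, ← pow_mul, mul_comm]
          rw [div_pow, mul_pow, mul_pow, hbb]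
          have hne : (b₁ ^ m) ^ r ≠ 0 := pow_ne_zero _ hb₁m
          field_simp
      _ = a₁ ^ m * ((p : ℚ) ^ t * b₂ / b₁ ^ m) ^ r := by rw [← e₁]

end Fermat.Agent.S15.H322
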