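import Fermat.Agent.S13.H175.Minkowski
import Fermat.Agent.S56.H186.TameCyclic
import Fermat.Agent.Lib.Cheb.H476.FrobConj

/-!
# Row S15 — DESC leaf BASE, part 1 (helper322): characters of `G_ℚ` unramified outside `p`

Blueprint `coord/S15-DESC-blueprint.md` §2, the pieces with trivial Galois action (`ψ_i = 1`).

`G = Gal(ℚ̄/ℚ)`, `p` a prime, `A` a valuation subring of `ℚ̄` over `p`.

* `exists_inertia_map_eq` : a homomorphism `χ` from `G` to a commutative group, of finite level and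
  unramified at every prime `q ≠ p`, satisfies `χ(G) = χ(I_A)` (Minkowski, `S13.H175`).
* `exists_generator_map` : if moreover the target is killed by a prime `r ≠ p`, then `χ(G)` is
  generated by `χ τ₀` for one `τ₀ ∈ I_A` (tame inertia is cyclic, `S56.H186`).
* `IsCharUnrOutside p c` : `c : G → P` is additive, of finite level, unramified outside `p`.
* `IsCharUnrOutside.eq_zero_of_unram` : unramified at `p` as well ⟹ `c = 0`.
* `IsCharUnrOutside.dichotomy` : `|P| = r` prime, `r ≠ p`:  `c₁ = 0` or `c₂ = m • c₁`.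
* `IsCharUnrOutside.finite_and_ncard_le` : a set of such characters with values in a group of prime
  order `r ≠ p` is finite with at most `r` elements.

Imports: `S13/H175/Minkowski`, `S56/H186/TameCyclic`, `Lib/Cheb/H476/FrobConj` (all on main).
-/

set_option autoImplicit false

namespace Fermat.Agent.S15.H322

/-- `ℚ̄` (local abbreviation). -/
local notation "Qb" => AlgebraicClosure ℚ

/-- `Gal(ℚ̄/ℚ)` (local abbreviation). -/
local notation "GQ" => (AlgebraicClosure ℚ ≃ₐ[ℚ] AlgebraicClosure ℚ)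

section Mul

variable {H : Type*} [CommGroup H] (χ : GQ →* H)

/-- **The Galois group of an abelian extension unramified outside `p` is generated by inertia at
`p`.**  For `χ` of finite level, unramified at all `q ≠ p`, and `A` over `p`: `χ(G) = χ(I_A)`. -/
theorem exists_inertia_map_eq
    (hlevel : ∃ s : Finset Qb, ∀ σ : GQ, (∀ x ∈ s, σ x = x) → χ σ = 1)
    {p : ℕ}
    (hunr : ∀ q : ℕ, q.Prime → q ≠ p → ∃ B : ValuationSubring Qb,
      B.LiesOverPrime q ∧ ∀ σ ∈ B.inertiaSubgroupIn ℚ, χ σ = 1)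
    (A : ValuationSubring Qb) (hA : A.LiesOverPrime p) (σ : GQ) :
    ∃ τ ∈ A.inertiaSubgroupIn ℚ, χ σ = χ τ := by
  set N : Subgroup H := (A.inertiaSubgroupIn ℚ).map χ with hN
  have key := Fermat.Agent.S13.H175.minkowski_character ((QuotientGroup.mk' N).comp χ)
    (by
      obtain ⟨s, hs⟩ := hlevel
      refine ⟨s, fun τ hτ => ?_⟩
      rw [MonoidHom.comp_apply, hs τ hτ, map_one])
    (by
      intro q hq
      by_cases hqp : q = p
      · subst hqp
        refine ⟨A, hA, fun τ hτ => ?_⟩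
        rw [MonoidHom.comp_apply, QuotientGroup.mk'_apply, QuotientGroup.eq_one_iff]
        exact ⟨τ, hτ, rfl⟩
      · obtain ⟨B, hB, hBχ⟩ := hunr q hq hqp
        refine ⟨B, hB, fun τ hτ => ?_⟩
        rw [MonoidHom.comp_apply, hBχ τ hτ, map_one])
    σ
  rw [MonoidHom.comp_apply, QuotientGroup.mk'_apply, QuotientGroup.eq_one_iff] at key
  obtain ⟨τ, hτ, h⟩ := key
  exact ⟨τ, hτ, h.symm⟩

/-- **An abelian extension of exponent `r` unramified outside `p ≠ r` is cyclic.**  There is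
`τ₀ ∈ I_A` with `χ(G) ⊆ ⟨χ τ₀⟩`. -/
theorem exists_generator_map
    (hlevel : ∃ s : Finset Qb, ∀ σ : GQ, (∀ x ∈ s, σ x = x) → χ σ = 1)
    {p r : ℕ} (hp : p.Prime) (hr : r.Prime) (hrp : r ≠ p)
    (hHr : ∀ σ : GQ, χ σ ^ r = 1)
    (hunr : ∀ q : ℕ, q.Prime → q ≠ p → ∃ B : ValuationSubring Qb,
      B.LiesOverPrime q ∧ ∀ σ ∈ B.inertiaSubgroupIn ℚ, χ σ = 1)
    (A : ValuationSubring Qb) (hA : A.LiesOverPrime p) :
    ∃ τ₀ ∈ A.inertiaSubgroupIn ℚ, ∀ σ : GQ, ∃ j : ℕ, χ σ = χ τ₀ ^ j := by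
  have hlevel' : ∃ E : IntermediateField ℚ Qb, FiniteDimensional ℚ E ∧
      ∀ σ : GQ, (∀ x ∈ E, σ x = x) → χ σ = 1 := by
    obtain ⟨s, hs⟩ := hlevel
    refine ⟨IntermediateField.adjoin ℚ (s : Set Qb),
      IntermediateField.finiteDimensional_adjoin
        (fun x _ => (AlgebraicClosure.isAlgebraic ℚ).isIntegral.isIntegral x),
      fun σ hσ => hs σ (fun x hx => hσ x (IntermediateField.subset_adjoin ℚ _ hx))⟩
  have halg : Algebra.IsAlgebraic ℚ Qb := AlgebraicClosure.isAlgebraic ℚ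
  obtain ⟨τ₀, hτ₀, hgen⟩ := Fermat.Agent.S56.H186.exists_generator_inertia_image A χ hA hp
    hlevel' ((Nat.coprime_primes hr hp).mpr hrp)
    (fun σ _ => ⟨1, by rw [pow_one]; exact hHr σ⟩)
  refine ⟨τ₀, hτ₀, fun σ => ?_⟩
  obtain ⟨τ, hτ, h⟩ := exists_inertia_map_eq χ hlevel hunr A hA σ
  obtain ⟨j, hj⟩ := hgen τ hτ
  exact ⟨j, h.trans hj⟩

end Mul

section Add

variable {P : Type*} [AddCommGroup P]

/-- `c : G_ℚ → P` is an additive character of finite level, unramified at every prime `q ≠ p`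
(at ONE place over each `q`; for characters this does not depend on the place). -/
structure IsCharUnrOutside (p : ℕ) (c : GQ → P) : Prop where
  map_mul : ∀ σ τ : GQ, c (σ * τ) = c σ + c τ
  level : ∃ s : Finset Qb, ∀ σ : GQ, (∀ x ∈ s, σ x = x) → c σ = 0
  unram : ∀ q : ℕ, q.Prime → q ≠ p → ∃ B : ValuationSubring Qb,
    B.LiesOverPrime q ∧ ∀ σ ∈ B.inertiaSubgroupIn ℚ, c σ = 0

namespace IsCharUnrOutside

variable {p : ℕ} {c c₁ c₂ : GQ → P}

theorem map_one (h : IsCharUnrOutside p c) : c 1 = 0 := by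
  have := h.map_mul 1 1
  rw [mul_one] at this
  exact left_eq_add.mp this

/-- The multiplicative homomorphism attached to an additive character. -/
def toHom (h : IsCharUnrOutside p c) : GQ →* Multiplicative P where
  toFun σ := Multiplicative.ofAdd (c σ)
  map_one' := by rw [h.map_one]; rfl
  map_mul' σ τ := by rw [h.map_mul]; rfl

theorem toHom_apply (h : IsCharUnrOutside p c) (σ : GQ) :
    h.toHom σ = Multiplicative.ofAdd (c σ) := rfl

/-- **Minkowski.**  A character unramified outside `p` and at `p` is trivial. -/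
theorem eq_zero_of_unram (h : IsCharUnrOutside p c)
    (hp : ∃ A : ValuationSubring Qb, A.LiesOverPrime p ∧ ∀ σ ∈ A.inertiaSubgroupIn ℚ, c σ = 0)
    (σ : GQ) : c σ = 0 := by
  have key := Fermat.Agent.S13.H175.minkowski_character h.toHom
    (by
      obtain ⟨s, hs⟩ := h.level
      exact ⟨s, fun τ hτ => by rw [toHom_apply, hs τ hτ]; rfl⟩)
    (by
      intro q hq
      by_cases hqp : q = p
      · subst hqp
        obtain ⟨A, hA, hAc⟩ := hp
        exact ⟨A, hA, fun τ hτ => by rw [toHom_apply, hAc τ hτ]; rfl⟩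
      · obtain ⟨B, hB, hBc⟩ := h.unram q hq hqp
        exact ⟨B, hB, fun τ hτ => by rw [toHom_apply, hBc τ hτ]; rfl⟩)
    σ
  rw [toHom_apply] at key
  exact Multiplicative.ofAdd.injective key

/-- The pair of two characters, as a homomorphism. -/
def pairHom (h₁ : IsCharUnrOutside p c₁) (h₂ : IsCharUnrOutside p c₂) :
    GQ →* Multiplicative (P × P) where
  toFun σ := Multiplicative.ofAdd (c₁ σ, c₂ σ)
  map_one' := by rw [h₁.map_one, h₂.map_one]; rfl
  map_mul' σ τ := by rw [h₁.map_mul, h₂.map_mul]; rfl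

theorem pairHom_apply (h₁ : IsCharUnrOutside p c₁) (h₂ : IsCharUnrOutside p c₂) (σ : GQ) :
    pairHom h₁ h₂ σ = Multiplicative.ofAdd (c₁ σ, c₂ σ) := rfl

/-- Two characters unramified outside `p`, killed by a prime `r ≠ p`, take their values on
multiples of the values at ONE inertia element `τ₀` at `p`. -/
theorem exists_common_generator (h₁ : IsCharUnrOutside p c₁) (h₂ : IsCharUnrOutside p c₂)
    {r : ℕ} (hp : p.Prime) (hr : r.Prime) (hrp : r ≠ p) (hPr : ∀ x : P, r • x = 0)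
    (A : ValuationSubring Qb) (hA : A.LiesOverPrime p) :
    ∃ τ₀ ∈ A.inertiaSubgroupIn ℚ, ∀ σ : GQ, ∃ j : ℕ, c₁ σ = j • c₁ τ₀ ∧ c₂ σ = j • c₂ τ₀ := by
  classical
  obtain ⟨τ₀, hτ₀, hgen⟩ := exists_generator_map (pairHom h₁ h₂)
    (by
      obtain ⟨s₁, hs₁⟩ := h₁.level
      obtain ⟨s₂, hs₂⟩ := h₂.level
      refine ⟨s₁ ∪ s₂, fun σ hσ => ?_⟩
      rw [pairHom_apply, hs₁ σ (fun x hx => hσ x (Finset.mem_union_left _ hx)),
        hs₂ σ (fun x hx => hσ x (Finset.mem_union_right _ hx))]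
      rfl)
    hp hr hrp
    (by
      intro σ
      rw [pairHom_apply, ← ofAdd_nsmul]
      have : r • (c₁ σ, c₂ σ) = (0 : P × P) := by
        rw [Prod.smul_mk, hPr, hPr]; rfl
      rw [this]; rfl)
    (by
      intro q hq hqp
      obtain ⟨B, hB, hB₁⟩ := h₁.unram q hq hqp
      obtain ⟨B', hB', hB₂⟩ := h₂.unram q hq hqp
      refine ⟨B, hB, fun σ hσ => ?_⟩
      have h2 : c₂ σ = 0 := by
        have := Fermat.Agent.Lib.Cheb.H476.map_inertia_eq_one_of_liesOver h₂.toHom hq hB' hB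
          (fun τ hτ => by rw [toHom_apply, hB₂ τ hτ]; rfl) σ hσ
        rw [toHom_apply] at this
        exact Multiplicative.ofAdd.injective this
      rw [pairHom_apply, hB₁ σ hσ, h2]
      rfl)
    A hA
  refine ⟨τ₀, hτ₀, fun σ => ?_⟩
  obtain ⟨j, hj⟩ := hgen σ
  refine ⟨j, ?_⟩
  rw [pairHom_apply, pairHom_apply, ← ofAdd_nsmul] at hj
  have := Multiplicative.ofAdd.injective hj
  rw [Prod.smul_mk] at this
  exact ⟨(Prod.ext_iff.mp this).1, (Prod.ext_iff.mp this).2⟩

/-- **Dimension ≤ 1.**  Two characters with values in a group of prime order `r ≠ p`, unramified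
outside `p`: the first is zero or the second is a multiple of the first. -/
theorem dichotomy (h₁ : IsCharUnrOutside p c₁) (h₂ : IsCharUnrOutside p c₂)
    {r : ℕ} (hp : p.Prime) (hr : r.Prime) (hrp : r ≠ p) (hcard : Nat.card P = r) :
    (∀ σ, c₁ σ = 0) ∨ ∃ m : ℕ, m < r ∧ ∀ σ, c₂ σ = m • c₁ σ := by
  have : Fact r.Prime := ⟨hr⟩
  have : Finite P := Nat.finite_of_card_ne_zero (by rw [hcard]; exact hr.ne_zero)
  have hPr : ∀ x : P, r • x = 0 := fun x => by
    rw [← hcard]; exact card_nsmul_eq_zero'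
  obtain ⟨A, hA⟩ := Fermat.Agent.S54.exists_valuationSubring_liesOver p hp
  obtain ⟨τ₀, -, hgen⟩ := exists_common_generator h₁ h₂ hp hr hrp hPr A hA
  by_cases h0 : c₁ τ₀ = 0
  · left
    intro σ
    obtain ⟨j, hj, -⟩ := hgen σ
    rw [hj, h0, smul_zero]
  · right
    have hmem : c₂ τ₀ ∈ AddSubgroup.zmultiples (c₁ τ₀) :=
      mem_zmultiples_of_prime_card hcard h0
    obtain ⟨m, hm⟩ := AddSubgroup.mem_zmultiples_iff.mp hmem
    -- reduce `m` modulo `r`
    have hr0 : (r : ℤ) ≠ 0 := by exact_mod_cast hr.ne_zero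
    have hm0 : 0 ≤ m % (r : ℤ) := Int.emod_nonneg m hr0
    have hmr : m % (r : ℤ) < r := Int.emod_lt_of_pos m (by exact_mod_cast hr.pos)
    refine ⟨(m % (r : ℤ)).toNat, by omega, fun σ => ?_⟩
    obtain ⟨j, hj1, hj2⟩ := hgen σ
    have hm' : ((m % (r : ℤ)).toNat : ℤ) • c₁ τ₀ = c₂ τ₀ := by
      rw [Int.toNat_of_nonneg hm0, Int.emod_def, sub_smul, hm, mul_smul, natCast_zsmul, hPr,
        sub_zero]
    rw [hj1, hj2, ← hm', natCast_zsmul, smul_comm]

/-- **Count.**  A set of characters of `G_ℚ` with values in a group of prime order `r ≠ p`, all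
unramified outside `p`, is finite and has at most `r` elements. -/
theorem finite_and_ncard_le {r : ℕ} (hp : p.Prime) (hr : r.Prime) (hrp : r ≠ p)
    (hcard : Nat.card P = r) (S : Set (GQ → P)) (hS : ∀ c ∈ S, IsCharUnrOutside p c) :
    S.Finite ∧ S.ncard ≤ r := by
  classical
  by_cases hall : ∀ c ∈ S, c = 0
  · have hsub : S ⊆ {0} := fun c hc => hall c hc
    refine ⟨(Set.finite_singleton _).subset hsub, ?_⟩
    calc S.ncard ≤ ({0} : Set (GQ → P)).ncard := Set.ncard_le_ncard hsub (Set.finite_singleton _)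
      _ = 1 := Set.ncard_singleton _
      _ ≤ r := hr.one_lt.le
  · push Not at hall
    obtain ⟨c₁, hc₁, hc₁0⟩ := hall
    have h₁ := hS c₁ hc₁
    have hsub : S ⊆ (fun m : ℕ => m • c₁) '' (Finset.range r : Set ℕ) := by
      intro c hc
      rcases dichotomy h₁ (hS c hc) hp hr hrp hcard with h0 | ⟨m, hm, hmc⟩
      · exact absurd (funext h0) hc₁0
      · exact ⟨m, Finset.mem_coe.mpr (Finset.mem_range.mpr hm), (funext hmc).symm⟩
    have hfin : ((fun m : ℕ => m • c₁) '' (Finset.range r : Set ℕ)).Finite :=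
      (Finset.finite_toSet _).image _
    refine ⟨hfin.subset hsub, ?_⟩
    calc S.ncard ≤ ((fun m : ℕ => m • c₁) '' (Finset.range r : Set ℕ)).ncard :=
          Set.ncard_le_ncard hsub hfin
      _ ≤ (Finset.range r : Set ℕ).ncard := Set.ncard_image_le (Finset.finite_toSet _)
      _ = r := by rw [Set.ncard_coe_finset, Finset.card_range]

end IsCharUnrOutside

end Add

end Fermat.Agent.S15.H322
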