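import Fermat.Agent.S15.H322.BaseArith
import Fermat.Agent.A2.IF.H429.Inertia
import Fermat.Agent.S56.H186.TameVal
import Fermat.Prelude.Def_GaloisRep_ComplexConjugation

/-!
# Row S15 — DESC leaf BASE, part 3 (helper322): the Kummer dictionary and the Kummer count

Blueprint `coord/S15-DESC-blueprint.md` §2, pieces `ψ_i = ω` (and `r = 2`).

`A` a valuation subring of `ℚ̄` over the prime `ℓ`, `I_A` its inertia group (Prelude form).

* `valuation_ratCast_eq`          : `v_A(a) = v_A(ℓ) ^ v_ℓ(a)` for `a ∈ ℚˣ`.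
* `dvd_padicValRat_of_fixed`      : **dictionary.**  `y ^ r = a ∈ ℚˣ`, `y` fixed by `I_A`
                                    ⟹ `r ∣ v_ℓ(a)`.
* `dvd_padicValRat_of_kummer`     : the same for a Kummer generator `β` (`β ^ r = a`) whose Kummer
                                    cocycle `σ ↦ σ β / β` is a coboundary on `I_A`:
                                    `σ β · ξ = β · σ ξ`, `ξ ^ r = 1`.
* `kummer_dichotomy_odd`          : **count, `r` odd.**  `β₁ ^ r = a₁`, `β₂ ^ r = a₂` with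
                                    `r ∣ v_ℓ(a_i)` for all `ℓ ≠ p`:  `β₁ ∈ μ_r · ℚˣ`  or
                                    `β₂ ∈ μ_r · β₁ ^ m · ℚˣ`.
* `kummer_trivial_odd`, `kummer_trivial_two` : all valuations divisible by `r` (and `a > 0` if
                                    `r = 2`): `β ∈ μ_r · ℚˣ`.
* `pos_of_complexConjugation_fixed`, `pos_of_complexConjugation_kummer` : **dictionary at the real
                                    place** (`r = 2`): `β` fixed by complex conjugation ⟹ `a > 0`.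
-/

set_option autoImplicit false

namespace Fermat.Agent.S15.H322

/-- `ℚ̄` (local abbreviation). -/
local notation "Qb" => AlgebraicClosure ℚ

/-- `Gal(ℚ̄/ℚ)` (local abbreviation). -/
local notation "GQ" => (AlgebraicClosure ℚ ≃ₐ[ℚ] AlgebraicClosure ℚ)

section Val

variable (A : ValuationSubring Qb) {ℓ : ℕ}

theorem valuation_prime_ne_zero (hℓ : ℓ.Prime) : A.valuation (ℓ : Qb) ≠ 0 :=
  (Valuation.ne_zero_iff _).mpr (Nat.cast_ne_zero.mpr hℓ.ne_zero)

theorem valuation_prime_lt_one (hA : A.LiesOverPrime ℓ) : A.valuation (ℓ : Qb) < 1 :=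
  A.mem_nonunits_iff.mp hA

theorem valuation_natCast_eq (hℓ : ℓ.Prime) (hA : A.LiesOverPrime ℓ) {n : ℕ} (hn : n ≠ 0) :
    A.valuation (n : Qb) = A.valuation (ℓ : Qb) ^ padicValNat ℓ n := by
  have : Fact ℓ.Prime := ⟨hℓ⟩
  obtain ⟨e, n', hn', rfl⟩ := Nat.exists_eq_pow_mul_and_not_dvd hn ℓ hℓ.ne_one
  have hn'0 : n' ≠ 0 := fun h => hn' (h ▸ dvd_zero ℓ)
  have hc : Nat.Coprime n' ℓ := ((Nat.Prime.coprime_iff_not_dvd hℓ).mpr hn').symm
  rw [padicValNat.mul (pow_ne_zero _ hℓ.ne_zero) hn'0, padicValNat.prime_pow,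
    padicValNat.eq_zero_of_not_dvd hn', add_zero, Nat.cast_mul, Nat.cast_pow, map_mul, map_pow,
    Fermat.Agent.S56.H186.valuation_natCast_eq_one_of_coprime A hA hc, mul_one]

theorem valuation_intCast_eq (hℓ : ℓ.Prime) (hA : A.LiesOverPrime ℓ) {n : ℤ} (hn : n ≠ 0) :
    A.valuation (n : Qb) = A.valuation (ℓ : Qb) ^ padicValInt ℓ n := by
  have h := valuation_natCast_eq A hℓ hA (Int.natAbs_ne_zero.mpr hn)
  rw [padicValInt, ← h]
  rcases Int.natAbs_eq n with h' | h'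
  · conv_lhs => rw [h']
    simp
  · conv_lhs => rw [h']
    simp

/-- The valuation of a nonzero rational number at a place over `ℓ`. -/
theorem valuation_ratCast_eq (hℓ : ℓ.Prime) (hA : A.LiesOverPrime ℓ) {a : ℚ} (ha : a ≠ 0) :
    A.valuation (a : Qb) = A.valuation (ℓ : Qb) ^ padicValRat ℓ a := by
  have hq0 := valuation_prime_ne_zero A hℓ
  rw [Rat.cast_def, map_div₀, valuation_intCast_eq A hℓ hA (Rat.num_ne_zero.mpr ha),
    valuation_natCast_eq A hℓ hA a.den_ne_zero, padicValRat_def, zpow_sub₀ hq0, zpow_natCast,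
    zpow_natCast]

/-- **Dictionary.**  If `y ^ r = a ∈ ℚˣ` and `y` is fixed by the inertia group at a place over
`ℓ`, then `r ∣ v_ℓ(a)`. -/
theorem dvd_padicValRat_of_fixed (hℓ : ℓ.Prime) (hA : A.LiesOverPrime ℓ) {r : ℕ} {a : ℚ}
    (ha : a ≠ 0) {y : Qb} (hy : y ^ r = (a : Qb))
    (hfix : ∀ σ ∈ A.inertiaSubgroupIn ℚ, σ y = y) : (r : ℤ) ∣ padicValRat ℓ a := by
  have hq0 := valuation_prime_ne_zero A hℓ
  have hq1 := valuation_prime_lt_one A hA
  by_cases hy0 : y = 0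
  · -- then `r = 0` and `a = 1`
    rcases Nat.eq_zero_or_pos r with hr | hr
    · subst hr
      rw [pow_zero] at hy
      have : a = 1 := by exact_mod_cast hy.symm
      rw [this, padicValRat.one]
      exact dvd_zero _
    · exfalso
      rw [hy0, zero_pow hr.ne'] at hy
      exact ha (by exact_mod_cast hy.symm)
  · obtain ⟨k, hk⟩ := Fermat.Agent.A2.IF.H429.exists_zpow_of_mem_inertiaField A ℓ hℓ hA y
      ((Fermat.Agent.A2.IF.H429.mem_inertiaField_iff A).mpr hfix) hy0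
    have hvy : A.valuation y = A.valuation (ℓ : Qb) ^ k := by
      rw [map_div₀, map_zpow₀, div_eq_one_iff_eq (zpow_ne_zero _ hq0)] at hk
      exact hk
    have h1 : A.valuation (a : Qb) = A.valuation (ℓ : Qb) ^ (k * r) := by
      rw [← hy, map_pow, hvy, zpow_mul, zpow_natCast]
    rw [valuation_ratCast_eq A hℓ hA ha] at h1
    have := zpow_right_injective₀ (zero_lt_iff.mpr hq0) hq1.ne h1
    exact ⟨k, by rw [this, mul_comm]⟩

/-- **Dictionary, Kummer form.**  `β ^ r = a ∈ ℚˣ`, and the Kummer cocycle `σ ↦ σ β / β` is, on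
the inertia group at a place over `ℓ`, the coboundary of an `r`-th root of unity `ξ`.  Then
`r ∣ v_ℓ(a)`. -/
theorem dvd_padicValRat_of_kummer (hℓ : ℓ.Prime) (hA : A.LiesOverPrime ℓ) {r : ℕ} {a : ℚ}
    (ha : a ≠ 0) {β ξ : Qb} (hβ : β ^ r = (a : Qb)) (hξ : ξ ^ r = 1)
    (hcob : ∀ σ ∈ A.inertiaSubgroupIn ℚ, σ β * ξ = β * σ ξ) : (r : ℤ) ∣ padicValRat ℓ a := by
  by_cases hr : r = 0
  · subst hr
    rw [pow_zero] at hβ
    have : a = 1 := by exact_mod_cast hβ.symm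
    rw [this, padicValRat.one]
    exact dvd_zero _
  have hξ0 : ξ ≠ 0 := fun h => by rw [h, zero_pow hr] at hξ; exact zero_ne_one hξ
  refine dvd_padicValRat_of_fixed A hℓ hA ha (y := β / ξ) ?_ ?_
  · rw [div_pow, hβ, hξ, div_one]
  · intro σ hσ
    have hσξ : σ ξ ≠ 0 := fun h => hξ0 ((map_eq_zero_iff σ σ.injective).mp h)
    rw [map_div₀, div_eq_div_iff hσξ hξ0]
    exact hcob σ hσ

end Val

section Count

/-- An element of `ℚ̄` whose `r`-th power is an `r`-th power of a rational number `b ≠ 0` is a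
root of unity times `b`. -/
theorem exists_root_mul_of_pow_eq {r : ℕ} {β : Qb} {b : ℚ} (hb : b ≠ 0)
    (h : β ^ r = ((b ^ r : ℚ) : Qb)) : ∃ ξ : Qb, ξ ^ r = 1 ∧ β = ξ * (b : Qb) := by
  have hb' : (b : Qb) ≠ 0 := by exact_mod_cast hb
  refine ⟨β / b, ?_, by rw [div_mul_cancel₀ _ hb']⟩
  rw [div_pow, h]
  push_cast
  exact div_self (pow_ne_zero _ hb')

/-- **Kummer classes unramified everywhere (`r` odd) are trivial.** -/
theorem kummer_trivial_odd {r : ℕ} (hr : Odd r) {a : ℚ} (ha : a ≠ 0)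
    {β : Qb} (hβ : β ^ r = (a : Qb))
    (h : ∀ ℓ : ℕ, ℓ.Prime → (r : ℤ) ∣ padicValRat ℓ a) :
    ∃ ξ : Qb, ξ ^ r = 1 ∧ ∃ b : ℚ, b ≠ 0 ∧ β = ξ * (b : Qb) := by
  obtain ⟨b, hb, e⟩ := rat_eq_pow_of_dvd_odd hr ha h
  obtain ⟨ξ, hξ, hβξ⟩ := exists_root_mul_of_pow_eq (β := β) hb (by rw [hβ, e])
  exact ⟨ξ, hξ, b, hb, hβξ⟩

/-- **Kummer classes for `r = 2`, unramified everywhere and positive, are trivial.** -/
theorem kummer_trivial_two {a : ℚ} (ha : 0 < a) {β : Qb} (hβ : β ^ 2 = (a : Qb))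
    (h : ∀ ℓ : ℕ, ℓ.Prime → (2 : ℤ) ∣ padicValRat ℓ a) :
    ∃ b : ℚ, b ≠ 0 ∧ (β = (b : Qb) ∨ β = -(b : Qb)) := by
  obtain ⟨b, hb, e⟩ := rat_eq_sq_of_dvd_of_pos ha h
  refine ⟨b, hb, ?_⟩
  have h1 : β ^ 2 = (b : Qb) ^ 2 := by rw [hβ, e]; push_cast; rfl
  exact sq_eq_sq_iff_eq_or_eq_neg.mp h1

/-- **Dictionary at the real place.**  If `β ^ 2 = a ∈ ℚˣ` and `β` is fixed by complex
conjugation, then `a > 0`. -/
theorem pos_of_complexConjugation_fixed {a : ℚ} (ha : a ≠ 0) {β : Qb}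
    (hβ : β ^ 2 = (a : Qb)) (hfix : complexConjugation β = β) : 0 < a := by
  have h1 := complexEmbedding_complexConjugation β
  rw [hfix] at h1
  have him : (complexEmbedding β).im = 0 := by
    have := congrArg Complex.im h1
    rw [Complex.conj_im] at this
    linarith
  have h2 : complexEmbedding (β ^ 2) = ((a : ℚ) : ℂ) := by
    rw [hβ]; exact map_ratCast complexEmbedding a
  rw [map_pow] at h2
  have h3 : ((a : ℚ) : ℝ) = (complexEmbedding β).re ^ 2 := by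
    have := congrArg Complex.re h2
    rw [sq, Complex.mul_re, him, mul_zero, sub_zero] at this
    rw [sq, this]
    exact (Complex.ratCast_re a).symm
  have h4 : (0 : ℝ) ≤ ((a : ℚ) : ℝ) := by rw [h3]; positivity
  have h5 : (0 : ℚ) ≤ a := by exact_mod_cast h4
  exact lt_of_le_of_ne h5 (Ne.symm ha)

/-- **Dictionary at the real place, Kummer form**: the Kummer cocycle of `β` (`β ^ 2 = a`) is a
coboundary on `⟨c⟩`, `c` = complex conjugation. -/
theorem pos_of_complexConjugation_kummer {a : ℚ} (ha : a ≠ 0) {β ξ : Qb}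
    (hβ : β ^ 2 = (a : Qb)) (hξ : ξ ^ 2 = 1)
    (hcob : complexConjugation β * ξ = β * complexConjugation ξ) : 0 < a := by
  have hξ' : ξ = 1 ∨ ξ = -1 := sq_eq_one_iff.mp hξ
  have hcξ : complexConjugation ξ = ξ := by
    rcases hξ' with h | h <;> rw [h] <;> simp
  have hξ0 : ξ ≠ 0 := by
    rcases hξ' with h | h <;> rw [h] <;> simp
  rw [hcξ] at hcob
  exact pos_of_complexConjugation_fixed ha hβ (mul_right_cancel₀ hξ0 hcob)

/-- **Kummer count, `r` an odd prime.**  Two Kummer generators whose `r`-th powers are rational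
with all valuations away from `p` divisible by `r`: the first is trivial, or the second is a power
of the first up to a trivial one. -/
theorem kummer_dichotomy_odd {r p : ℕ} (hp : p.Prime) (hr : r.Prime) (hr2 : r ≠ 2)
    {a₁ a₂ : ℚ} (ha₁ : a₁ ≠ 0) (ha₂ : a₂ ≠ 0) {β₁ β₂ : Qb}
    (hβ₁ : β₁ ^ r = (a₁ : Qb)) (hβ₂ : β₂ ^ r = (a₂ : Qb))
    (h₁ : ∀ ℓ : ℕ, ℓ.Prime → ℓ ≠ p → (r : ℤ) ∣ padicValRat ℓ a₁)
    (h₂ : ∀ ℓ : ℕ, ℓ.Prime → ℓ ≠ p → (r : ℤ) ∣ padicValRat ℓ a₂) :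
    (∃ ξ : Qb, ξ ^ r = 1 ∧ ∃ b : ℚ, b ≠ 0 ∧ β₁ = ξ * (b : Qb)) ∨
      ∃ m : ℕ, m < r ∧ ∃ ξ : Qb, ξ ^ r = 1 ∧ ∃ b : ℚ, b ≠ 0 ∧ β₂ = ξ * (β₁ ^ m * (b : Qb)) := by
  rcases rat_dichotomy_odd hp hr hr2 ha₁ ha₂ h₁ h₂ with ⟨b, hb, e⟩ | ⟨m, hm, b, hb, e⟩
  · left
    obtain ⟨ξ, hξ, hβξ⟩ := exists_root_mul_of_pow_eq (β := β₁) hb (by rw [hβ₁, e])
    exact ⟨ξ, hξ, b, hb, hβξ⟩
  · right
    have hb' : (b : Qb) ≠ 0 := by exact_mod_cast hb
    have hβ₁0 : β₁ ≠ 0 := by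
      intro h0
      rw [h0, zero_pow hr.ne_zero] at hβ₁
      exact ha₁ (by exact_mod_cast hβ₁.symm)
    have hden : β₁ ^ m * (b : Qb) ≠ 0 := mul_ne_zero (pow_ne_zero _ hβ₁0) hb'
    refine ⟨m, hm, β₂ / (β₁ ^ m * (b : Qb)), ?_, b, hb, by rw [div_mul_cancel₀ _ hden]⟩
    rw [div_pow, hβ₂, mul_pow, ← pow_mul, mul_comm m r, pow_mul, hβ₁, e]
    push_cast
    have hne : ((a₁ : Qb) ^ m * (b : Qb) ^ r) ≠ 0 :=
      mul_ne_zero (pow_ne_zero _ (by exact_mod_cast ha₁)) (pow_ne_zero _ hb')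
    exact div_self hne

end Count

end Fermat.Agent.S15.H322
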