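import Fermat.Agent.S15.H322.BaseTw
import Fermat.Agent.S15.H322.BaseChar

/-!
# Row S15 — DESC leaf BASE, part 5 (helper322): the per-piece bound, abstract form

Blueprint `coord/S15-DESC-blueprint.md` §1–2.  `J` an abelian group with an action of
`G = Gal(ℚ̄/ℚ)`, `F' ≤ J` a `G`-stable subgroup, `e ∈ J` with `e ∉ F'`, `r • e ∈ F'` (`r` prime):
the piece is `P = (F' + ℤ e) / F' ≅ ℤ/r`.  A point `y ∈ J` *has coordinate* `f : G → ZMod r` if
`σ y - y ≡ f(σ) e  mod F'` for all `σ` (`HasCoord`).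

* `relIndex_le_of_dichotomy` : pure group theory: if any two elements of `K` satisfy
  `y₁ ∈ H ∨ ∃ m < r, y₂ - m y₁ ∈ H`, then `[K : H ∩ K] ≤ r` (and is finite).
* `HasCoord.isTwCoc`        : `G` acts on `P` by `ω`, `y` of finite level ⟹ `f` is a twisted
  cocycle of finite level.
* `piece_dichotomy_tw`      : **piece `ψ = ω`, `r` odd.**  `y₁, y₂` with coordinates satisfying the
  local conditions `KumDivAt` at all `ℓ ≠ p`:  `y₁ - n e` or `y₂ - m y₁ - n e` has all its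
  Kummer values `σ w - w` in `F'`.
* `piece_trivial_tw`        : local conditions at ALL primes: `y - n e` has Kummer values in `F'`.
* `piece_dichotomy_triv`, `piece_trivial_triv` : **piece `ψ = 1`**, local condition = the
  coordinate vanishes on inertia.
-/

set_option autoImplicit false
set_option linter.unusedSectionVars false
set_option linter.style.haveILetI false

namespace Fermat.Agent.S15.H322

open Fermat.Agent.S56 Fermat.Agent.S56.H786

section Index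

variable {J : Type*} [AddCommGroup J]

/-- If any two elements of `K` are dependent modulo `H` with a coefficient `< r`, then
`[K : H ∩ K] ≤ r`. -/
theorem relIndex_le_of_dichotomy (H K : AddSubgroup J) {r : ℕ} (hr : 0 < r)
    (h : ∀ y₁ ∈ K, ∀ y₂ ∈ K, y₁ ∈ H ∨ ∃ m : ℕ, m < r ∧ y₂ - m • y₁ ∈ H) :
    H.relIndex K ≠ 0 ∧ H.relIndex K ≤ r := by
  classical
  by_cases hKH : K ≤ H
  · rw [AddSubgroup.relIndex_eq_one.mpr hKH]
    exact ⟨one_ne_zero, hr⟩
  · obtain ⟨y₁, hy₁K, hy₁H⟩ := SetLike.not_le_iff_exists.mp hKH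
    -- the map `m ↦ [m y₁]` from `Fin r` onto `K / (H ∩ K)`
    let φ : Fin r → K ⧸ H.addSubgroupOf K := fun m =>
      QuotientAddGroup.mk (⟨(m : ℕ) • y₁, K.nsmul_mem hy₁K _⟩ : K)
    have hφ : Function.Surjective φ := by
      intro q
      induction q using QuotientAddGroup.induction_on with
      | H y₂ =>
        rcases h y₁ hy₁K y₂ y₂.2 with h1 | ⟨m, hm, hmem⟩
        · exact absurd h1 hy₁H
        · refine ⟨⟨m, hm⟩, ?_⟩
          show (QuotientAddGroup.mk _ : K ⧸ H.addSubgroupOf K) = QuotientAddGroup.mk y₂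
          rw [QuotientAddGroup.eq]
          show ((-(⟨m • y₁, _⟩ : K) + y₂ : K) : J) ∈ H
          have : ((-(⟨m • y₁, K.nsmul_mem hy₁K _⟩ : K) + y₂ : K) : J) = (y₂ : J) - m • y₁ := by
            push_cast
            abel
          rw [this]
          exact hmem
    have hfin : Finite (K ⧸ H.addSubgroupOf K) := Finite.of_surjective φ hφ
    have hcard : Nat.card (K ⧸ H.addSubgroupOf K) ≤ r := by
      have := Nat.card_le_card_of_surjective φ hφ
      simpa using this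
    have hidx : H.relIndex K = Nat.card (K ⧸ H.addSubgroupOf K) := rfl
    rw [hidx]
    exact ⟨Nat.card_pos.ne', hcard⟩

end Index

section Piece

variable {J : Type*} [AddCommGroup J] [DistribMulAction GQ J]
variable (r : ℕ) (F' : AddSubgroup J) (e : J)

/-- `y` has coordinate `f` on the piece `(F' + ℤ e) / F'`: `σ y - y ≡ f(σ) e  mod F'`. -/
def HasCoord (y : J) (f : GQ → ZMod r) : Prop :=
  ∀ σ : GQ, σ • y - y - (f σ).val • e ∈ F'

/-- `y` has finite level. -/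
def HasLevel (y : J) : Prop :=
  ∃ L : IntermediateField ℚ Qb, FiniteDimensional ℚ L ∧
    ∀ τ : GQ, (∀ x ∈ L, τ x = x) → τ • y = y

/-- All Kummer values `σ y - y` of `y` lie in `F'`. -/
def KumIn (y : J) : Prop :=
  ∀ σ : GQ, σ • y - y ∈ F'

variable {r F' e}

/-- Multiples of `e` in `F'`: exactly the multiples of `r`. -/
theorem zsmul_mem_iff (hr : r.Prime) (he : e ∉ F') (hre : r • e ∈ F') (k : ℤ) :
    k • e ∈ F' ↔ ((k : ℤ) : ZMod r) = 0 := by
  rw [ZMod.intCast_zmod_eq_zero_iff_dvd]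
  constructor
  · intro hk
    by_contra hdvd
    have hcop : IsCoprime k (r : ℤ) := by
      have := (Int.isCoprime_iff_gcd_eq_one).mpr
        (by
          have h1 : Int.gcd (r : ℤ) k = 1 := by
            rw [Int.gcd_comm]
            have hrp : Prime (r : ℤ) := Nat.prime_iff_prime_int.mp hr
            have := (Int.isCoprime_iff_gcd_eq_one).mp
              ((Prime.coprime_iff_not_dvd hrp).mpr hdvd)
            rw [Int.gcd_comm]; exact this
          rw [Int.gcd_comm]; exact h1)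
      exact this
    obtain ⟨u, v, huv⟩ := hcop
    apply he
    have : e = u • (k • e) + v • ((r : ℤ) • e) := by
      rw [smul_smul, smul_smul, ← add_smul, huv, one_smul]
    rw [this]
    refine F'.add_mem (F'.zsmul_mem hk _) (F'.zsmul_mem ?_ _)
    rw [natCast_zsmul]; exact hre
  · rintro ⟨c, rfl⟩
    rw [mul_comm, mul_smul, natCast_zsmul]
    exact F'.zsmul_mem hre _

/-- `n.val • e` modulo `F'` only depends on `n : ZMod r`. -/
theorem val_smul_sub_zsmul_mem (hr : r.Prime) (he : e ∉ F') (hre : r • e ∈ F') (n : ZMod r)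
    (k : ℤ) (hk : ((k : ℤ) : ZMod r) = n) : n.val • e - k • e ∈ F' := by
  haveI : NeZero r := ⟨hr.ne_zero⟩
  have h1 : n.val • e - k • e = ((n.val : ℤ) - k) • e := by
    rw [sub_smul, natCast_zsmul]
  rw [h1, zsmul_mem_iff hr he hre]
  push_cast
  rw [ZMod.natCast_zmod_val, hk, sub_self]

/-- The coordinate of a point is unique. -/
theorem HasCoord.unique (hr : r.Prime) (he : e ∉ F') (hre : r • e ∈ F') {y : J}
    {f g : GQ → ZMod r} (hf : HasCoord r F' e y f) (hg : HasCoord r F' e y g) : f = g := by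
  haveI : NeZero r := ⟨hr.ne_zero⟩
  funext σ
  have h1 := F'.sub_mem (hg σ) (hf σ)
  have h2 : σ • y - y - (g σ).val • e - (σ • y - y - (f σ).val • e) =
      (((f σ).val : ℤ) - ((g σ).val : ℤ)) • e := by
    rw [sub_smul, natCast_zsmul, natCast_zsmul]; abel
  rw [h2, zsmul_mem_iff hr he hre] at h1
  push_cast at h1
  rw [ZMod.natCast_zmod_val, ZMod.natCast_zmod_val] at h1
  exact sub_eq_zero.mp h1

/-- An integral multiple of `e` with coefficient `≡ 0 mod r` lies in `F'`. -/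
theorem zsmul_mem_of_cast_eq_zero (hr : r.Prime) (he : e ∉ F') (hre : r • e ∈ F') {k : ℤ}
    (hk : ((k : ℤ) : ZMod r) = 0) : k • e ∈ F' :=
  (zsmul_mem_iff hr he hre k).mpr hk

/-- **The coordinate of a point of finite level is a twisted cocycle of finite level**, when `G`
acts on the piece by `ω`. -/
theorem HasCoord.isTwCoc (hr : r.Prime) (hstab : ∀ σ : GQ, ∀ x ∈ F', σ • x ∈ F')
    (he : e ∉ F') (hre : r • e ∈ F')
    (hact : ∀ σ : GQ, ∀ a : ℕ, IsCycExp r σ a → σ • e - a • e ∈ F')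
    {y : J} {f : GQ → ZMod r} (hf : HasCoord r F' e y f) (hlev : HasLevel y) :
    IsTwCoc r f := by
  haveI : NeZero r := ⟨hr.ne_zero⟩
  refine ⟨fun σ τ a ha => ?_, ?_⟩
  · have hA := hf (σ * τ)
    have hB := hf σ
    have hu := hstab σ _ (hf τ)
    have hz := hact σ a ha
    have key : ((((f σ).val : ℤ) + ((f τ).val : ℤ) * (a : ℤ) - ((f (σ * τ)).val : ℤ)) • e) ∈ F' := by
      have e1 : (((f σ).val : ℤ) + ((f τ).val : ℤ) * (a : ℤ) - ((f (σ * τ)).val : ℤ)) • e =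
          ((σ * τ) • y - y - (f (σ * τ)).val • e) - (σ • y - y - (f σ).val • e)
            - σ • (τ • y - y - (f τ).val • e) - ((f τ).val : ℤ) • (σ • e - a • e) := by
        have h1 : σ • (τ • y - y - (f τ).val • e) =
            (σ * τ) • y - σ • y - (f τ).val • (σ • e) := by
          rw [smul_sub, smul_sub, ← mul_smul, smul_comm]
        rw [h1]
        generalize (σ * τ) • y = Y1
        generalize σ • y = Y2
        generalize σ • e = E1
        simp only [← natCast_zsmul]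
        module
      rw [e1]
      exact F'.sub_mem (F'.sub_mem (F'.sub_mem hA hB) hu) (F'.zsmul_mem hz _)
    rw [zsmul_mem_iff hr he hre] at key
    push_cast at key
    rw [ZMod.natCast_zmod_val, ZMod.natCast_zmod_val, ZMod.natCast_zmod_val] at key
    linear_combination -key
  · obtain ⟨L, hL, hlev⟩ := hlev
    refine ⟨L, hL, fun σ τ hτ => ?_⟩
    have hA := hf (σ * τ)
    have hB := hf σ
    rw [mul_smul, hlev τ hτ] at hA
    have key : ((((f σ).val : ℤ) - ((f (σ * τ)).val : ℤ)) • e) ∈ F' := by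
      have e1 : (((f σ).val : ℤ) - ((f (σ * τ)).val : ℤ)) • e =
          (σ • y - y - (f (σ * τ)).val • e) - (σ • y - y - (f σ).val • e) := by
        rw [sub_smul, natCast_zsmul, natCast_zsmul]; abel
      rw [e1]
      exact F'.sub_mem hA hB
    rw [zsmul_mem_iff hr he hre] at key
    push_cast at key
    rw [ZMod.natCast_zmod_val, ZMod.natCast_zmod_val] at key
    linear_combination -key

/-- If `f₂ - m f₁` is the coboundary of `n`, then `y₂ - m y₁ - n e` has all Kummer values in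
`F'`. -/
theorem kumIn_of_isTwCob (hr : r.Prime) {ζ : Qb} (hζ : IsPrimitiveRoot ζ r)
    (he : e ∉ F') (hre : r • e ∈ F')
    (hact : ∀ σ : GQ, ∀ a : ℕ, IsCycExp r σ a → σ • e - a • e ∈ F')
    {y₁ y₂ : J} {f₁ f₂ : GQ → ZMod r} (h₁ : HasCoord r F' e y₁ f₁) (h₂ : HasCoord r F' e y₂ f₂)
    (m : ℕ) (n : ZMod r) (hcob : IsTwCob r (fun σ => f₂ σ - (m : ZMod r) * f₁ σ) n) :
    KumIn F' (y₂ - m • y₁ - n.val • e) := by
  haveI : NeZero r := ⟨hr.ne_zero⟩
  intro σ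
  obtain ⟨a, ha⟩ := exists_isCycExp hζ σ
  have hB₁ := h₁ σ
  have hB₂ := h₂ σ
  have hz := hact σ a ha
  have hc := hcob σ a ha
  have hk : ((((f₂ σ).val : ℤ) - (m : ℤ) * ((f₁ σ).val : ℤ) - (n.val : ℤ) * ((a : ℤ) - 1)) • e)
      ∈ F' := by
    apply zsmul_mem_of_cast_eq_zero hr he hre
    push_cast
    rw [ZMod.natCast_zmod_val, ZMod.natCast_zmod_val, ZMod.natCast_zmod_val]
    linear_combination hc
  have e1 : σ • (y₂ - m • y₁ - n.val • e) - (y₂ - m • y₁ - n.val • e) =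
      (σ • y₂ - y₂ - (f₂ σ).val • e) - (m : ℤ) • (σ • y₁ - y₁ - (f₁ σ).val • e)
        - (n.val : ℤ) • (σ • e - a • e)
        + (((f₂ σ).val : ℤ) - (m : ℤ) * ((f₁ σ).val : ℤ) - (n.val : ℤ) * ((a : ℤ) - 1)) • e := by
    have h1 : σ • (y₂ - m • y₁ - n.val • e) = σ • y₂ - m • (σ • y₁) - n.val • (σ • e) := by
      rw [smul_sub, smul_sub, smul_comm σ m, smul_comm σ n.val]
    rw [h1]
    generalize σ • y₂ = Y2
    generalize σ • y₁ = Y1
    generalize σ • e = E1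
    simp only [← natCast_zsmul]
    module
  rw [e1]
  exact F'.add_mem (F'.sub_mem (F'.sub_mem hB₂ (F'.zsmul_mem hB₁ _)) (F'.zsmul_mem hz _)) hk

/-- **Piece `ψ = ω`, `r` an odd prime: the dichotomy.** -/
theorem piece_dichotomy_tw {p : ℕ} (hp : p.Prime) (hr : r.Prime) (hr2 : r ≠ 2) {ζ : Qb}
    (hζ : IsPrimitiveRoot ζ r) (hstab : ∀ σ : GQ, ∀ x ∈ F', σ • x ∈ F')
    (he : e ∉ F') (hre : r • e ∈ F')
    (hact : ∀ σ : GQ, ∀ a : ℕ, IsCycExp r σ a → σ • e - a • e ∈ F')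
    {y₁ y₂ : J} {f₁ f₂ : GQ → ZMod r} (h₁ : HasCoord r F' e y₁ f₁) (h₂ : HasCoord r F' e y₂ f₂)
    (hl₁ : HasLevel y₁) (hl₂ : HasLevel y₂)
    (hdiv₁ : ∀ ℓ : ℕ, ℓ.Prime → ℓ ≠ p → KumDivAt r ζ f₁ ℓ)
    (hdiv₂ : ∀ ℓ : ℕ, ℓ.Prime → ℓ ≠ p → KumDivAt r ζ f₂ ℓ) :
    (∃ n : ℕ, KumIn F' (y₁ - n • e)) ∨
      ∃ m : ℕ, m < r ∧ ∃ n : ℕ, KumIn F' (y₂ - m • y₁ - n • e) := by
  have hc₁ := h₁.isTwCoc hr hstab he hre hact hl₁
  have hc₂ := h₂.isTwCoc hr hstab he hre hact hl₂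
  rcases tw_dichotomy_odd hp hr hr2 hζ hc₁ hc₂ hdiv₁ hdiv₂ with ⟨n, hn⟩ | ⟨m, hm, n, hn⟩
  · left
    refine ⟨n.val, ?_⟩
    have hn' : IsTwCob r (fun σ => f₁ σ - ((0 : ℕ) : ZMod r) * f₁ σ) n := by
      intro σ a ha
      simp only [Nat.cast_zero, zero_mul, sub_zero]
      exact hn σ a ha
    have := kumIn_of_isTwCob hr hζ he hre hact h₁ h₁ 0 n hn'
    rw [zero_smul, sub_zero] at this
    exact this
  · right
    exact ⟨m, hm, n.val, kumIn_of_isTwCob hr hζ he hre hact h₁ h₂ m n hn⟩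

/-- **Piece `ψ = ω`, `r` an odd prime, local conditions at all primes.** -/
theorem piece_trivial_tw (hr : r.Prime) (hr2 : r ≠ 2) {ζ : Qb}
    (hζ : IsPrimitiveRoot ζ r) (hstab : ∀ σ : GQ, ∀ x ∈ F', σ • x ∈ F')
    (he : e ∉ F') (hre : r • e ∈ F')
    (hact : ∀ σ : GQ, ∀ a : ℕ, IsCycExp r σ a → σ • e - a • e ∈ F')
    {y : J} {f : GQ → ZMod r} (h : HasCoord r F' e y f) (hl : HasLevel y)
    (hdiv : ∀ ℓ : ℕ, ℓ.Prime → KumDivAt r ζ f ℓ) :
    ∃ n : ℕ, KumIn F' (y - n • e) := by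
  have hc := h.isTwCoc hr hstab he hre hact hl
  obtain ⟨n, hn⟩ := tw_trivial_odd hr hr2 hζ hc hdiv
  refine ⟨n.val, ?_⟩
  have hn' : IsTwCob r (fun σ => f σ - ((0 : ℕ) : ZMod r) * f σ) n := by
    intro σ a ha
    simp only [Nat.cast_zero, zero_mul, sub_zero]
    exact hn σ a ha
  have := kumIn_of_isTwCob hr hζ he hre hact h h 0 n hn'
  rw [zero_smul, sub_zero] at this
  exact this

/-- **Index bound for a piece `ψ = ω`** (`r` odd).  `Y` a subgroup all of whose elements have a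
coordinate, finite level and satisfy the local conditions away from `p`; `H` a subgroup containing
`e` and every element of `Y` with Kummer values in `F'`.  Then `[Y : H ∩ Y] ≤ r`. -/
theorem piece_relIndex_le_tw {p : ℕ} (hp : p.Prime) (hr : r.Prime) (hr2 : r ≠ 2) {ζ : Qb}
    (hζ : IsPrimitiveRoot ζ r) (hstab : ∀ σ : GQ, ∀ x ∈ F', σ • x ∈ F')
    (he : e ∉ F') (hre : r • e ∈ F')
    (hact : ∀ σ : GQ, ∀ a : ℕ, IsCycExp r σ a → σ • e - a • e ∈ F')
    (Y H : AddSubgroup J) (heY : e ∈ Y) (heH : e ∈ H)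
    (hY : ∀ y ∈ Y, ∃ f : GQ → ZMod r, HasCoord r F' e y f ∧ HasLevel y ∧
      ∀ ℓ : ℕ, ℓ.Prime → ℓ ≠ p → KumDivAt r ζ f ℓ)
    (hH : ∀ w ∈ Y, KumIn F' w → w ∈ H) :
    H.relIndex Y ≠ 0 ∧ H.relIndex Y ≤ r := by
  refine relIndex_le_of_dichotomy H Y hr.pos (fun y₁ hy₁ y₂ hy₂ => ?_)
  obtain ⟨f₁, h₁, hl₁, hd₁⟩ := hY y₁ hy₁
  obtain ⟨f₂, h₂, hl₂, hd₂⟩ := hY y₂ hy₂
  rcases piece_dichotomy_tw hp hr hr2 hζ hstab he hre hact h₁ h₂ hl₁ hl₂ hd₁ hd₂ with
    ⟨n, hn⟩ | ⟨m, hm, n, hn⟩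
  · left
    have h1 : y₁ - n • e ∈ H := hH _ (Y.sub_mem hy₁ (Y.nsmul_mem heY n)) hn
    have := H.add_mem h1 (H.nsmul_mem heH n)
    rwa [sub_add_cancel] at this
  · right
    refine ⟨m, hm, ?_⟩
    have h1 : y₂ - m • y₁ - n • e ∈ H :=
      hH _ (Y.sub_mem (Y.sub_mem hy₂ (Y.nsmul_mem hy₁ m)) (Y.nsmul_mem heY n)) hn
    have := H.add_mem h1 (H.nsmul_mem heH n)
    rwa [sub_add_cancel] at this

/-- **Index for a piece `ψ = ω`, local conditions at all primes**: `Y ≤ H`. -/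
theorem piece_le_tw (hr : r.Prime) (hr2 : r ≠ 2) {ζ : Qb}
    (hζ : IsPrimitiveRoot ζ r) (hstab : ∀ σ : GQ, ∀ x ∈ F', σ • x ∈ F')
    (he : e ∉ F') (hre : r • e ∈ F')
    (hact : ∀ σ : GQ, ∀ a : ℕ, IsCycExp r σ a → σ • e - a • e ∈ F')
    (Y H : AddSubgroup J) (heY : e ∈ Y) (heH : e ∈ H)
    (hY : ∀ y ∈ Y, ∃ f : GQ → ZMod r, HasCoord r F' e y f ∧ HasLevel y ∧
      ∀ ℓ : ℕ, ℓ.Prime → KumDivAt r ζ f ℓ)
    (hH : ∀ w ∈ Y, KumIn F' w → w ∈ H) : Y ≤ H := by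
  intro y hy
  obtain ⟨f, h, hl, hd⟩ := hY y hy
  obtain ⟨n, hn⟩ := piece_trivial_tw hr hr2 hζ hstab he hre hact h hl hd
  have h1 : y - n • e ∈ H := hH _ (Y.sub_mem hy (Y.nsmul_mem heY n)) hn
  have := H.add_mem h1 (H.nsmul_mem heH n)
  rwa [sub_add_cancel] at this

/-! ### Pieces with trivial action (`ψ = 1`) -/

/-- A finite-dimensional intermediate field is fixed pointwise as soon as a suitable finite set
is (technique of `S15.H242.BaseE.FiniteLevel.exists_finset`). -/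
theorem exists_finset_of_finiteDimensional (L : IntermediateField ℚ Qb)
    [FiniteDimensional ℚ L] :
    ∃ s : Finset Qb, ∀ σ : GQ, (∀ x ∈ s, σ x = x) → ∀ x ∈ L, σ x = x := by
  classical
  let b := Module.finBasis ℚ L
  refine ⟨Finset.univ.image fun i => ((b i : L) : Qb), fun σ hσ x hx => ?_⟩
  have hb : ∀ i, σ ((b i : L) : Qb) = ((b i : L) : Qb) := fun i =>
    hσ _ (Finset.mem_image.mpr ⟨i, Finset.mem_univ _, rfl⟩)
  have hrepr := b.sum_repr ⟨x, hx⟩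
  have hx' : x = ∑ i, (b.repr ⟨x, hx⟩ i) • ((b i : L) : Qb) := by
    have := congrArg (fun e : L => (e : Qb)) hrepr
    simp only [IntermediateField.coe_sum, IntermediateField.coe_smul] at this
    exact this.symm
  rw [hx', map_sum]
  refine Finset.sum_congr rfl fun i _ => ?_
  rw [Algebra.smul_def, map_mul, AlgEquiv.commutes, hb]

/-- The coordinate of a point is additive when `G` acts trivially on the piece. -/
theorem HasCoord.map_mul_triv (hr : r.Prime) (hstab : ∀ σ : GQ, ∀ x ∈ F', σ • x ∈ F')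
    (he : e ∉ F') (hre : r • e ∈ F') (hact : ∀ σ : GQ, σ • e - e ∈ F')
    {y : J} {f : GQ → ZMod r} (hf : HasCoord r F' e y f) (σ τ : GQ) :
    f (σ * τ) = f σ + f τ := by
  haveI : NeZero r := ⟨hr.ne_zero⟩
  have hA := hf (σ * τ)
  have hB := hf σ
  have hu := hstab σ _ (hf τ)
  have hz := hact σ
  have key : ((((f σ).val : ℤ) + ((f τ).val : ℤ) - ((f (σ * τ)).val : ℤ)) • e) ∈ F' := by
    have e1 : (((f σ).val : ℤ) + ((f τ).val : ℤ) - ((f (σ * τ)).val : ℤ)) • e =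
        ((σ * τ) • y - y - (f (σ * τ)).val • e) - (σ • y - y - (f σ).val • e)
          - σ • (τ • y - y - (f τ).val • e) - ((f τ).val : ℤ) • (σ • e - e) := by
      have h1 : σ • (τ • y - y - (f τ).val • e) =
          (σ * τ) • y - σ • y - (f τ).val • (σ • e) := by
        rw [smul_sub, smul_sub, ← mul_smul, smul_comm]
      rw [h1]
      generalize (σ * τ) • y = Y1
      generalize σ • y = Y2
      generalize σ • e = E1
      simp only [← natCast_zsmul]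
      module
    rw [e1]
    exact F'.sub_mem (F'.sub_mem (F'.sub_mem hA hB) hu) (F'.zsmul_mem hz _)
  rw [zsmul_mem_iff hr he hre] at key
  push_cast at key
  rw [ZMod.natCast_zmod_val, ZMod.natCast_zmod_val, ZMod.natCast_zmod_val] at key
  linear_combination -key

/-- The coordinate of a point of finite level vanishes on a small open subgroup. -/
theorem HasCoord.exists_finset (hr : r.Prime) (he : e ∉ F') (hre : r • e ∈ F')
    {y : J} {f : GQ → ZMod r} (hf : HasCoord r F' e y f) (hlev : HasLevel y) :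
    ∃ s : Finset Qb, ∀ σ : GQ, (∀ x ∈ s, σ x = x) → f σ = 0 := by
  haveI : NeZero r := ⟨hr.ne_zero⟩
  obtain ⟨L, hL, hlev⟩ := hlev
  obtain ⟨s, hs⟩ := exists_finset_of_finiteDimensional L
  refine ⟨s, fun σ hσ => ?_⟩
  have hA := hf σ
  rw [hlev σ (hs σ hσ), sub_self, zero_sub] at hA
  have key : (((f σ).val : ℤ) • e) ∈ F' := by
    rw [natCast_zsmul]
    have := F'.neg_mem hA
    rwa [neg_neg] at this
  rw [zsmul_mem_iff hr he hre] at key
  push_cast at key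
  rwa [ZMod.natCast_zmod_val] at key

/-- The coordinate of a point, for a piece with trivial action, is a character unramified
outside `p` as soon as it vanishes on inertia at the primes `ℓ ≠ p`. -/
theorem HasCoord.isCharUnrOutside (hr : r.Prime) (hstab : ∀ σ : GQ, ∀ x ∈ F', σ • x ∈ F')
    (he : e ∉ F') (hre : r • e ∈ F') (hact : ∀ σ : GQ, σ • e - e ∈ F')
    {y : J} {f : GQ → ZMod r} (hf : HasCoord r F' e y f) (hlev : HasLevel y) {p : ℕ}
    (hunr : ∀ ℓ : ℕ, ℓ.Prime → ℓ ≠ p → ∃ B : ValuationSubring Qb,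
      B.LiesOverPrime ℓ ∧ ∀ σ ∈ B.inertiaSubgroupIn ℚ, f σ = 0) :
    IsCharUnrOutside p f :=
  ⟨hf.map_mul_triv hr hstab he hre hact, hf.exists_finset hr he hre hlev, hunr⟩

/-- If `f₂ = m f₁`, then `y₂ - m y₁` has all Kummer values in `F'` (trivial action). -/
theorem kumIn_of_eq_smul (hr : r.Prime) (he : e ∉ F') (hre : r • e ∈ F')
    {y₁ y₂ : J} {f₁ f₂ : GQ → ZMod r} (h₁ : HasCoord r F' e y₁ f₁) (h₂ : HasCoord r F' e y₂ f₂)
    (m : ℕ) (hm : ∀ σ, f₂ σ = m • f₁ σ) : KumIn F' (y₂ - m • y₁) := by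
  haveI : NeZero r := ⟨hr.ne_zero⟩
  intro σ
  have hB₁ := h₁ σ
  have hB₂ := h₂ σ
  have hk : ((((f₂ σ).val : ℤ) - (m : ℤ) * ((f₁ σ).val : ℤ)) • e) ∈ F' := by
    apply zsmul_mem_of_cast_eq_zero hr he hre
    push_cast
    rw [ZMod.natCast_zmod_val, ZMod.natCast_zmod_val, hm σ, nsmul_eq_mul, sub_self]
  have e1 : σ • (y₂ - m • y₁) - (y₂ - m • y₁) =
      (σ • y₂ - y₂ - (f₂ σ).val • e) - (m : ℤ) • (σ • y₁ - y₁ - (f₁ σ).val • e)
        + (((f₂ σ).val : ℤ) - (m : ℤ) * ((f₁ σ).val : ℤ)) • e := by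
    have h1 : σ • (y₂ - m • y₁) = σ • y₂ - m • (σ • y₁) := by
      rw [smul_sub, smul_comm σ m]
    rw [h1]
    generalize σ • y₂ = Y2
    generalize σ • y₁ = Y1
    simp only [← natCast_zsmul]
    module
  rw [e1]
  exact F'.add_mem (F'.sub_mem hB₂ (F'.zsmul_mem hB₁ _)) hk

/-- **Piece `ψ = 1`: the dichotomy** (`r ≠ p` primes). -/
theorem piece_dichotomy_triv {p : ℕ} (hp : p.Prime) (hr : r.Prime) (hrp : r ≠ p)
    (hstab : ∀ σ : GQ, ∀ x ∈ F', σ • x ∈ F')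
    (he : e ∉ F') (hre : r • e ∈ F') (hact : ∀ σ : GQ, σ • e - e ∈ F')
    {y₁ y₂ : J} {f₁ f₂ : GQ → ZMod r} (h₁ : HasCoord r F' e y₁ f₁) (h₂ : HasCoord r F' e y₂ f₂)
    (hl₁ : HasLevel y₁) (hl₂ : HasLevel y₂)
    (hunr₁ : ∀ ℓ : ℕ, ℓ.Prime → ℓ ≠ p → ∃ B : ValuationSubring Qb,
      B.LiesOverPrime ℓ ∧ ∀ σ ∈ B.inertiaSubgroupIn ℚ, f₁ σ = 0)
    (hunr₂ : ∀ ℓ : ℕ, ℓ.Prime → ℓ ≠ p → ∃ B : ValuationSubring Qb,
      B.LiesOverPrime ℓ ∧ ∀ σ ∈ B.inertiaSubgroupIn ℚ, f₂ σ = 0) :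
    KumIn F' y₁ ∨ ∃ m : ℕ, m < r ∧ KumIn F' (y₂ - m • y₁) := by
  haveI : NeZero r := ⟨hr.ne_zero⟩
  have hc₁ := h₁.isCharUnrOutside hr hstab he hre hact hl₁ hunr₁
  have hc₂ := h₂.isCharUnrOutside hr hstab he hre hact hl₂ hunr₂
  rcases hc₁.dichotomy hc₂ hp hr hrp (Nat.card_zmod r) with h0 | ⟨m, hm, hmf⟩
  · left
    have hz : ∀ σ, f₁ σ = (0 : ℕ) • f₁ σ := fun σ => by rw [h0 σ, smul_zero]
    have := kumIn_of_eq_smul hr he hre h₁ h₁ 0 hz
    rwa [zero_smul, sub_zero] at this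
  · right
    exact ⟨m, hm, kumIn_of_eq_smul hr he hre h₁ h₂ m hmf⟩

/-- **Piece `ψ = 1`, unramified everywhere**: Kummer values in `F'`. -/
theorem piece_trivial_triv {p : ℕ} (hp : p.Prime) (hr : r.Prime)
    (hstab : ∀ σ : GQ, ∀ x ∈ F', σ • x ∈ F')
    (he : e ∉ F') (hre : r • e ∈ F') (hact : ∀ σ : GQ, σ • e - e ∈ F')
    {y : J} {f : GQ → ZMod r} (h : HasCoord r F' e y f) (hl : HasLevel y)
    (hunr : ∀ ℓ : ℕ, ℓ.Prime → ∃ B : ValuationSubring Qb,
      B.LiesOverPrime ℓ ∧ ∀ σ ∈ B.inertiaSubgroupIn ℚ, f σ = 0) :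
    KumIn F' y := by
  haveI : NeZero r := ⟨hr.ne_zero⟩
  have hc := h.isCharUnrOutside (p := p) hr hstab he hre hact hl (fun ℓ hℓ _ => hunr ℓ hℓ)
  have h0 : ∀ σ, f σ = 0 := hc.eq_zero_of_unram (hunr p hp)
  have hz : ∀ σ, f σ = (0 : ℕ) • f σ := fun σ => by rw [h0 σ, smul_zero]
  have := kumIn_of_eq_smul hr he hre h h 0 hz
  rwa [zero_smul, sub_zero] at this

/-- **Index bound for a piece `ψ = 1`.** -/
theorem piece_relIndex_le_triv {p : ℕ} (hp : p.Prime) (hr : r.Prime) (hrp : r ≠ p)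
    (hstab : ∀ σ : GQ, ∀ x ∈ F', σ • x ∈ F')
    (he : e ∉ F') (hre : r • e ∈ F') (hact : ∀ σ : GQ, σ • e - e ∈ F')
    (Y H : AddSubgroup J)
    (hY : ∀ y ∈ Y, ∃ f : GQ → ZMod r, HasCoord r F' e y f ∧ HasLevel y ∧
      ∀ ℓ : ℕ, ℓ.Prime → ℓ ≠ p → ∃ B : ValuationSubring Qb,
        B.LiesOverPrime ℓ ∧ ∀ σ ∈ B.inertiaSubgroupIn ℚ, f σ = 0)
    (hH : ∀ w ∈ Y, KumIn F' w → w ∈ H) :
    H.relIndex Y ≠ 0 ∧ H.relIndex Y ≤ r := by
  refine relIndex_le_of_dichotomy H Y hr.pos (fun y₁ hy₁ y₂ hy₂ => ?_)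
  obtain ⟨f₁, h₁, hl₁, hd₁⟩ := hY y₁ hy₁
  obtain ⟨f₂, h₂, hl₂, hd₂⟩ := hY y₂ hy₂
  rcases piece_dichotomy_triv hp hr hrp hstab he hre hact h₁ h₂ hl₁ hl₂ hd₁ hd₂ with
    hn | ⟨m, hm, hn⟩
  · left
    exact hH _ hy₁ hn
  · right
    exact ⟨m, hm, hH _ (Y.sub_mem hy₂ (Y.nsmul_mem hy₁ m)) hn⟩

end Piece

end Fermat.Agent.S15.H322
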