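import Fermat.Agent.S15.H322.BaseTw

/-!
# Row S15 — DESC leaf BASE, part 6 (helper322): the case `r = 2` (real place)

For `r = 2` the classes of `ℚˣ / 2` with even valuations away from `p` are `⟨-1, p⟩`; positivity
(Kummer class trivial at the real place, `f c = 0` for `c` = complex conjugation) removes `-1`, an
even valuation at `p` removes `p`.  (`coord/S15-DESC-blueprint.md` §2, with the real place instead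
of étaleness at `2`: notes of helper302 / helper111 / helper591.)

* `rat_dichotomy_two_pos`, `rat_dichotomy_two_unr` : the two one-dimensional cases, rational form.
* `kummer_dichotomy_of_rat` : from rational numbers to Kummer generators (any `r ≠ 0`).
* `isTwCob_two`             : for `r = 2` a coboundary is zero.
* `tw_dichotomy_two_pos`    : `f₁ c = f₂ c = 0`, `KumDivAt` at all `ℓ ≠ p`.
* `tw_dichotomy_two_unr`    : `KumDivAt` at all primes.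
* `tw_trivial_two`          : both ⟹ `f = 0`.
-/

set_option autoImplicit false
set_option linter.style.haveILetI false

namespace Fermat.Agent.S15.H322

open Fermat.Agent.S56 Fermat.Agent.S56.H786

section Rat

/-- Positive rational numbers with even valuations away from `p`: classes `1, p`. -/
theorem rat_dichotomy_two_pos {a₁ a₂ : ℚ} {p : ℕ} (hp : p.Prime) (ha₁ : 0 < a₁) (ha₂ : 0 < a₂)
    (h₁ : ∀ ℓ : ℕ, ℓ.Prime → ℓ ≠ p → (2 : ℤ) ∣ padicValRat ℓ a₁)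
    (h₂ : ∀ ℓ : ℕ, ℓ.Prime → ℓ ≠ p → (2 : ℤ) ∣ padicValRat ℓ a₂) :
    (∃ b : ℚ, b ≠ 0 ∧ a₁ = b ^ 2) ∨ ∃ m : ℕ, m < 2 ∧ ∃ b : ℚ, b ≠ 0 ∧ a₂ = a₁ ^ m * b ^ 2 := by
  have hp0 : (p : ℚ) ≠ 0 := by exact_mod_cast hp.ne_zero
  obtain ⟨b₁, hb₁, c₁⟩ := rat_two_cases hp ha₁.ne' h₁
  obtain ⟨b₂, hb₂, c₂⟩ := rat_two_cases hp ha₂.ne' h₂
  rcases c₁ with e₁ | ⟨-, hneg⟩ | ⟨e₁, -⟩ | ⟨-, hneg, -⟩
  · exact Or.inl ⟨b₁, hb₁, e₁⟩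
  · exact absurd ha₁ (not_lt.mpr hneg.le)
  · right
    rcases c₂ with e₂ | ⟨-, hneg⟩ | ⟨e₂, -⟩ | ⟨-, hneg, -⟩
    · exact ⟨0, by norm_num, b₂, hb₂, by rw [pow_zero, one_mul]; exact e₂⟩
    · exact absurd ha₂ (not_lt.mpr hneg.le)
    · refine ⟨1, by norm_num, b₂ / b₁, div_ne_zero hb₂ hb₁, ?_⟩
      rw [pow_one, e₁, e₂, div_pow]
      field_simp
    · exact absurd ha₂ (not_lt.mpr hneg.le)
  · exact absurd ha₁ (not_lt.mpr hneg.le)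

/-- Rational numbers with all valuations even: classes `1, -1`. -/
theorem rat_dichotomy_two_unr {a₁ a₂ : ℚ} (ha₁ : a₁ ≠ 0) (ha₂ : a₂ ≠ 0)
    (h₁ : ∀ ℓ : ℕ, ℓ.Prime → (2 : ℤ) ∣ padicValRat ℓ a₁)
    (h₂ : ∀ ℓ : ℕ, ℓ.Prime → (2 : ℤ) ∣ padicValRat ℓ a₂) :
    (∃ b : ℚ, b ≠ 0 ∧ a₁ = b ^ 2) ∨ ∃ m : ℕ, m < 2 ∧ ∃ b : ℚ, b ≠ 0 ∧ a₂ = a₁ ^ m * b ^ 2 := by
  obtain ⟨b₁, hb₁, c₁⟩ := rat_eq_pow_of_dvd (r := 2) ha₁ (by exact_mod_cast h₁)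
  obtain ⟨b₂, hb₂, c₂⟩ := rat_eq_pow_of_dvd (r := 2) ha₂ (by exact_mod_cast h₂)
  rcases c₁ with e₁ | e₁
  · exact Or.inl ⟨b₁, hb₁, e₁⟩
  · right
    rcases c₂ with e₂ | e₂
    · exact ⟨0, by norm_num, b₂, hb₂, by rw [pow_zero, one_mul]; exact e₂⟩
    · refine ⟨1, by norm_num, b₂ / b₁, div_ne_zero hb₂ hb₁, ?_⟩
      rw [pow_one, e₁, e₂, div_pow]
      field_simp

end Rat

section Kum

/-- `ℚ̄` (local abbreviation). -/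
local notation "Qbar" => AlgebraicClosure ℚ

/-- From a dependence of rational numbers modulo `r`-th powers to a dependence of Kummer
generators modulo `μ_r · ℚˣ`. -/
theorem kummer_dichotomy_of_rat {r : ℕ} (hr : r ≠ 0) {a₁ a₂ : ℚ} (ha₁ : a₁ ≠ 0)
    {β₁ β₂ : Qbar} (hβ₁ : β₁ ^ r = (a₁ : Qbar)) (hβ₂ : β₂ ^ r = (a₂ : Qbar))
    (h : (∃ b : ℚ, b ≠ 0 ∧ a₁ = b ^ r) ∨
      ∃ m : ℕ, m < r ∧ ∃ b : ℚ, b ≠ 0 ∧ a₂ = a₁ ^ m * b ^ r) :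
    (∃ ξ : Qbar, ξ ^ r = 1 ∧ ∃ b : ℚ, b ≠ 0 ∧ β₁ = ξ * (b : Qbar)) ∨
      ∃ m : ℕ, m < r ∧ ∃ ξ : Qbar, ξ ^ r = 1 ∧ ∃ b : ℚ, b ≠ 0 ∧
        β₂ = ξ * (β₁ ^ m * (b : Qbar)) := by
  rcases h with ⟨b, hb, e⟩ | ⟨m, hm, b, hb, e⟩
  · left
    obtain ⟨ξ, hξ, hβξ⟩ := exists_root_mul_of_pow_eq (β := β₁) hb (by rw [hβ₁, e])
    exact ⟨ξ, hξ, b, hb, hβξ⟩
  · right
    have hb' : (b : Qbar) ≠ 0 := by exact_mod_cast hb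
    have hβ₁0 : β₁ ≠ 0 := by
      intro h0
      rw [h0, zero_pow hr] at hβ₁
      exact ha₁ (by exact_mod_cast hβ₁.symm)
    have hden : β₁ ^ m * (b : Qbar) ≠ 0 := mul_ne_zero (pow_ne_zero _ hβ₁0) hb'
    refine ⟨m, hm, β₂ / (β₁ ^ m * (b : Qbar)), ?_, b, hb, by rw [div_mul_cancel₀ _ hden]⟩
    rw [div_pow, hβ₂, mul_pow, ← pow_mul, mul_comm m r, pow_mul, hβ₁, e]
    push_cast
    have hne : ((a₁ : Qbar) ^ m * (b : Qbar) ^ r) ≠ 0 :=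
      mul_ne_zero (pow_ne_zero _ (by exact_mod_cast ha₁)) (pow_ne_zero _ hb')
    exact div_self hne

end Kum

section Tw

variable {ζ : Qb}

/-- For `r = 2` every cyclotomic exponent is odd. -/
theorem isCycExp_two_cast (hζ : IsPrimitiveRoot ζ 2) {σ : GQ} {a : ℕ} (ha : IsCycExp 2 σ a) :
    (a : ZMod 2) = 1 := by
  obtain ⟨b, hb⟩ : ∃ b : ℕ, IsCycExp 2 σ b ∧ (b : ZMod 2) = 1 := by
    refine ⟨1, fun μ hμ => ?_, by norm_num⟩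
    rw [pow_one]
    rcases sq_eq_one_iff.mp hμ with h | h <;> rw [h] <;> simp
  rw [← hb.2]
  exact isCycExp_unique hζ ha hb.1

/-- For `r = 2` a coboundary vanishes. -/
theorem isTwCob_two (hζ : IsPrimitiveRoot ζ 2) {f : GQ → ZMod 2} {n : ZMod 2}
    (h : IsTwCob 2 f n) (σ : GQ) : f σ = 0 := by
  obtain ⟨a, ha⟩ := exists_isCycExp hζ σ
  rw [h σ a ha, isCycExp_two_cast hζ ha, sub_self, zero_mul]

/-- The `r`-th power of a Kummer generator of a cocycle vanishing at complex conjugation is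
positive (`r = 2`). -/
theorem IsKumGen.pos_of_conj (_hζ : IsPrimitiveRoot ζ 2) {f : GQ → ZMod 2} {β : Qb}
    (hβ : IsKumGen 2 ζ f β) (hc : f complexConjugation = 0) {a : ℚ} (ha : a ≠ 0)
    (hβa : β ^ 2 = (a : Qb)) : 0 < a := by
  refine pos_of_complexConjugation_fixed ha hβa ?_
  rw [hβ.2 complexConjugation, hc, zp_zero, one_mul]

/-- **`r = 2`, positive at the real place, local conditions away from `p`.** -/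
theorem tw_dichotomy_two_pos {p : ℕ} (hp : p.Prime) (hζ : IsPrimitiveRoot ζ 2)
    {f₁ f₂ : GQ → ZMod 2} (hf₁ : IsTwCoc 2 f₁) (hf₂ : IsTwCoc 2 f₂)
    (hc₁ : f₁ complexConjugation = 0) (hc₂ : f₂ complexConjugation = 0)
    (hdiv₁ : ∀ ℓ : ℕ, ℓ.Prime → ℓ ≠ p → KumDivAt 2 ζ f₁ ℓ)
    (hdiv₂ : ∀ ℓ : ℕ, ℓ.Prime → ℓ ≠ p → KumDivAt 2 ζ f₂ ℓ) :
    (∃ n : ZMod 2, IsTwCob 2 f₁ n) ∨
      ∃ m : ℕ, m < 2 ∧ ∃ n : ZMod 2, IsTwCob 2 (fun σ => f₂ σ - (m : ZMod 2) * f₁ σ) n := by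
  obtain ⟨β₁, hβ₁⟩ := hf₁.exists_isKumGen hζ
  obtain ⟨β₂, hβ₂⟩ := hf₂.exists_isKumGen hζ
  obtain ⟨a₁, ha₁, hβa₁⟩ := hβ₁.exists_rat hζ
  obtain ⟨a₂, ha₂, hβa₂⟩ := hβ₂.exists_rat hζ
  have hpos₁ := hβ₁.pos_of_conj hζ hc₁ ha₁ hβa₁
  have hpos₂ := hβ₂.pos_of_conj hζ hc₂ ha₂ hβa₂
  rcases kummer_dichotomy_of_rat two_ne_zero ha₁ hβa₁ hβa₂
    (rat_dichotomy_two_pos hp hpos₁ hpos₂
      (fun ℓ hℓ hℓp => by exact_mod_cast hdiv₁ ℓ hℓ hℓp β₁ a₁ hβ₁ hβa₁)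
      (fun ℓ hℓ hℓp => by exact_mod_cast hdiv₂ ℓ hℓ hℓp β₂ a₂ hβ₂ hβa₂)) with
    ⟨ξ, hξ, b, -, hb⟩ | ⟨m, hm, ξ, hξ, b, -, hb⟩
  · exact Or.inl (isTwCob_of_eq_mul hζ hβ₁ hξ hb)
  · exact Or.inr ⟨m, hm, isTwCob_sub_of_eq_mul hζ hβ₁ hβ₂ hξ hb⟩

/-- **`r = 2`, local conditions at all primes.** -/
theorem tw_dichotomy_two_unr (hζ : IsPrimitiveRoot ζ 2)
    {f₁ f₂ : GQ → ZMod 2} (hf₁ : IsTwCoc 2 f₁) (hf₂ : IsTwCoc 2 f₂)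
    (hdiv₁ : ∀ ℓ : ℕ, ℓ.Prime → KumDivAt 2 ζ f₁ ℓ)
    (hdiv₂ : ∀ ℓ : ℕ, ℓ.Prime → KumDivAt 2 ζ f₂ ℓ) :
    (∃ n : ZMod 2, IsTwCob 2 f₁ n) ∨
      ∃ m : ℕ, m < 2 ∧ ∃ n : ZMod 2, IsTwCob 2 (fun σ => f₂ σ - (m : ZMod 2) * f₁ σ) n := by
  obtain ⟨β₁, hβ₁⟩ := hf₁.exists_isKumGen hζ
  obtain ⟨β₂, hβ₂⟩ := hf₂.exists_isKumGen hζ
  obtain ⟨a₁, ha₁, hβa₁⟩ := hβ₁.exists_rat hζ
  obtain ⟨a₂, ha₂, hβa₂⟩ := hβ₂.exists_rat hζ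
  rcases kummer_dichotomy_of_rat two_ne_zero ha₁ hβa₁ hβa₂
    (rat_dichotomy_two_unr ha₁ ha₂
      (fun ℓ hℓ => by exact_mod_cast hdiv₁ ℓ hℓ β₁ a₁ hβ₁ hβa₁)
      (fun ℓ hℓ => by exact_mod_cast hdiv₂ ℓ hℓ β₂ a₂ hβ₂ hβa₂)) with
    ⟨ξ, hξ, b, -, hb⟩ | ⟨m, hm, ξ, hξ, b, -, hb⟩
  · exact Or.inl (isTwCob_of_eq_mul hζ hβ₁ hξ hb)
  · exact Or.inr ⟨m, hm, isTwCob_sub_of_eq_mul hζ hβ₁ hβ₂ hξ hb⟩

/-- **`r = 2`, positive and unramified everywhere ⟹ `f = 0`.** -/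
theorem tw_trivial_two (hζ : IsPrimitiveRoot ζ 2) {f : GQ → ZMod 2} (hf : IsTwCoc 2 f)
    (hc : f complexConjugation = 0) (hdiv : ∀ ℓ : ℕ, ℓ.Prime → KumDivAt 2 ζ f ℓ) (σ : GQ) :
    f σ = 0 := by
  obtain ⟨β, hβ⟩ := hf.exists_isKumGen hζ
  obtain ⟨a, ha, hβa⟩ := hβ.exists_rat hζ
  have hpos := hβ.pos_of_conj hζ hc ha hβa
  obtain ⟨b, -, hb⟩ := kummer_trivial_two hpos hβa
    (fun ℓ hℓ => by exact_mod_cast hdiv ℓ hℓ β a hβ hβa)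
  have hcob : ∃ n : ZMod 2, IsTwCob 2 f n := by
    rcases hb with h | h
    · exact isTwCob_of_eq_mul hζ hβ (ξ := 1) (one_pow 2) (b := b) (by rw [one_mul]; exact h)
    · exact isTwCob_of_eq_mul hζ hβ (ξ := -1) (by norm_num) (b := b) (by rw [h]; ring)
  obtain ⟨n, hn⟩ := hcob
  exact isTwCob_two hζ hn σ

end Tw

end Fermat.Agent.S15.H322
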