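import Fermat.Agent.S15.H322.BasePiece
import Fermat.Agent.S15.H322.BaseTwo

/-!
# Row S15 — DESC leaf BASE, part 7 (helper322): the per-piece bounds for `r = 2`

`J` an abelian group with an action of `G = Gal(ℚ̄/ℚ)`, `F' ≤ J` a `G`-stable subgroup, `e ∉ F'`,
`2 e ∈ F'`, `G` acting trivially on the piece `(F' + ℤ e) / F'`.  For `r = 2` the cyclotomic
character is trivial, and the coordinate `f : G → ZMod 2` of a point (`HasCoord`) is at the same
time a character and an (`ω`-twisted) Kummer cocycle; its Kummer class is `a ∈ ℚˣ/(ℚˣ)²`.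
Local conditions: `KumDivAt 2 ζ f ℓ` (`v_ℓ(a)` even), and `f c = 0` (`a > 0`), `c` the complex
conjugation.

* `piece_dichotomy_two_pos`, `piece_relIndex_le_two_pos` : `a > 0`, even valuations away from `p`:
  classes `1, p`; index `≤ 2`.
* `piece_dichotomy_two_unr`, `piece_relIndex_le_two_unr` : even valuations everywhere: classes
  `1, -1`; index `≤ 2`.
* `piece_trivial_two`, `piece_le_two` : both: trivial.
* `piece_relIndex_le_four` : even valuations away from `p`: classes `±1, ±p`; index `≤ 4`.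
-/

set_option autoImplicit false
set_option linter.unusedSectionVars false
set_option linter.style.haveILetI false

namespace Fermat.Agent.S15.H322

open Fermat.Agent.S56 Fermat.Agent.S56.H786

section PieceTwo

variable {J : Type*} [AddCommGroup J] [DistribMulAction GQ J]
variable {F' : AddSubgroup J} {e : J}

/-- For `r = 2` a trivial action on the piece is an action through `ω`. -/
theorem hact_tw_of_triv_two {ζ : Qb} (hζ : IsPrimitiveRoot ζ 2) (hre : 2 • e ∈ F')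
    (hact : ∀ σ : GQ, σ • e - e ∈ F') (σ : GQ) (a : ℕ) (ha : IsCycExp 2 σ a) :
    σ • e - a • e ∈ F' := by
  have h1 := isCycExp_two_cast hζ ha
  have hodd : a % 2 = 1 := by
    have h2 : ((a : ℕ) : ZMod 2) = ((1 : ℕ) : ZMod 2) := by rw [h1]; simp
    have := (ZMod.natCast_eq_natCast_iff' a 1 2).mp h2
    simpa using this
  obtain ⟨k, hk⟩ : ∃ k, a = 2 * k + 1 := ⟨a / 2, by omega⟩
  have : σ • e - a • e = (σ • e - e) - k • (2 • e) := by
    rw [hk, add_smul, one_smul, mul_comm, mul_smul]; abel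
  rw [this]
  exact F'.sub_mem (hact σ) (F'.nsmul_mem hre k)

/-- For `r = 2` an action through `ω` is a trivial action. -/
theorem hact_triv_of_tw_two
    (hact : ∀ σ : GQ, ∀ a : ℕ, IsCycExp 2 σ a → σ • e - a • e ∈ F') (σ : GQ) :
    σ • e - e ∈ F' := by
  have h1 : IsCycExp 2 σ 1 := by
    intro μ hμ
    rw [pow_one]
    rcases sq_eq_one_iff.mp hμ with h | h <;> rw [h] <;> simp
  have := hact σ 1 h1
  rwa [one_smul] at this

/-- **`r = 2`, positive, even valuations away from `p`: the dichotomy.** -/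
theorem piece_dichotomy_two_pos {p : ℕ} (hp : p.Prime) {ζ : Qb} (hζ : IsPrimitiveRoot ζ 2)
    (hstab : ∀ σ : GQ, ∀ x ∈ F', σ • x ∈ F') (he : e ∉ F') (hre : 2 • e ∈ F')
    (hact : ∀ σ : GQ, σ • e - e ∈ F')
    {y₁ y₂ : J} {f₁ f₂ : GQ → ZMod 2} (h₁ : HasCoord 2 F' e y₁ f₁) (h₂ : HasCoord 2 F' e y₂ f₂)
    (hl₁ : HasLevel y₁) (hl₂ : HasLevel y₂)
    (hc₁ : f₁ complexConjugation = 0) (hc₂ : f₂ complexConjugation = 0)
    (hdiv₁ : ∀ ℓ : ℕ, ℓ.Prime → ℓ ≠ p → KumDivAt 2 ζ f₁ ℓ)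
    (hdiv₂ : ∀ ℓ : ℕ, ℓ.Prime → ℓ ≠ p → KumDivAt 2 ζ f₂ ℓ) :
    KumIn F' y₁ ∨ ∃ m : ℕ, m < 2 ∧ KumIn F' (y₂ - m • y₁) := by
  have hact' := hact_tw_of_triv_two hζ hre hact
  have hcoc₁ := h₁.isTwCoc Nat.prime_two hstab he hre hact' hl₁
  have hcoc₂ := h₂.isTwCoc Nat.prime_two hstab he hre hact' hl₂
  rcases tw_dichotomy_two_pos hp hζ hcoc₁ hcoc₂ hc₁ hc₂ hdiv₁ hdiv₂ with
    ⟨n, hn⟩ | ⟨m, hm, n, hn⟩
  · left
    have h0 : ∀ σ, f₁ σ = (0 : ℕ) • f₁ σ := fun σ => by rw [isTwCob_two hζ hn σ, smul_zero]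
    have := kumIn_of_eq_smul Nat.prime_two he hre h₁ h₁ 0 h0
    rwa [zero_smul, sub_zero] at this
  · right
    refine ⟨m, hm, kumIn_of_eq_smul Nat.prime_two he hre h₁ h₂ m (fun σ => ?_)⟩
    have := isTwCob_two hζ hn σ
    rw [nsmul_eq_mul]
    exact sub_eq_zero.mp this

/-- **`r = 2`, even valuations everywhere: the dichotomy.** -/
theorem piece_dichotomy_two_unr {ζ : Qb} (hζ : IsPrimitiveRoot ζ 2)
    (hstab : ∀ σ : GQ, ∀ x ∈ F', σ • x ∈ F') (he : e ∉ F') (hre : 2 • e ∈ F')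
    (hact : ∀ σ : GQ, σ • e - e ∈ F')
    {y₁ y₂ : J} {f₁ f₂ : GQ → ZMod 2} (h₁ : HasCoord 2 F' e y₁ f₁) (h₂ : HasCoord 2 F' e y₂ f₂)
    (hl₁ : HasLevel y₁) (hl₂ : HasLevel y₂)
    (hdiv₁ : ∀ ℓ : ℕ, ℓ.Prime → KumDivAt 2 ζ f₁ ℓ)
    (hdiv₂ : ∀ ℓ : ℕ, ℓ.Prime → KumDivAt 2 ζ f₂ ℓ) :
    KumIn F' y₁ ∨ ∃ m : ℕ, m < 2 ∧ KumIn F' (y₂ - m • y₁) := by
  have hact' := hact_tw_of_triv_two hζ hre hact
  have hcoc₁ := h₁.isTwCoc Nat.prime_two hstab he hre hact' hl₁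
  have hcoc₂ := h₂.isTwCoc Nat.prime_two hstab he hre hact' hl₂
  rcases tw_dichotomy_two_unr hζ hcoc₁ hcoc₂ hdiv₁ hdiv₂ with ⟨n, hn⟩ | ⟨m, hm, n, hn⟩
  · left
    have h0 : ∀ σ, f₁ σ = (0 : ℕ) • f₁ σ := fun σ => by rw [isTwCob_two hζ hn σ, smul_zero]
    have := kumIn_of_eq_smul Nat.prime_two he hre h₁ h₁ 0 h0
    rwa [zero_smul, sub_zero] at this
  · right
    refine ⟨m, hm, kumIn_of_eq_smul Nat.prime_two he hre h₁ h₂ m (fun σ => ?_)⟩
    have := isTwCob_two hζ hn σ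
    rw [nsmul_eq_mul]
    exact sub_eq_zero.mp this

/-- **`r = 2`, positive and even valuations everywhere: trivial.** -/
theorem piece_trivial_two {ζ : Qb} (hζ : IsPrimitiveRoot ζ 2)
    (hstab : ∀ σ : GQ, ∀ x ∈ F', σ • x ∈ F') (he : e ∉ F') (hre : 2 • e ∈ F')
    (hact : ∀ σ : GQ, σ • e - e ∈ F')
    {y : J} {f : GQ → ZMod 2} (h : HasCoord 2 F' e y f) (hl : HasLevel y)
    (hc : f complexConjugation = 0) (hdiv : ∀ ℓ : ℕ, ℓ.Prime → KumDivAt 2 ζ f ℓ) :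
    KumIn F' y := by
  have hact' := hact_tw_of_triv_two hζ hre hact
  have hcoc := h.isTwCoc Nat.prime_two hstab he hre hact' hl
  have h0 : ∀ σ, f σ = (0 : ℕ) • f σ := fun σ => by
    rw [tw_trivial_two hζ hcoc hc hdiv σ, smul_zero]
  have := kumIn_of_eq_smul Nat.prime_two he hre h h 0 h0
  rwa [zero_smul, sub_zero] at this

/-- **Index bound, `r = 2`, positive, even valuations away from `p`.** -/
theorem piece_relIndex_le_two_pos {p : ℕ} (hp : p.Prime) {ζ : Qb} (hζ : IsPrimitiveRoot ζ 2)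
    (hstab : ∀ σ : GQ, ∀ x ∈ F', σ • x ∈ F') (he : e ∉ F') (hre : 2 • e ∈ F')
    (hact : ∀ σ : GQ, σ • e - e ∈ F') (Y H : AddSubgroup J)
    (hY : ∀ y ∈ Y, ∃ f : GQ → ZMod 2, HasCoord 2 F' e y f ∧ HasLevel y ∧
      f complexConjugation = 0 ∧ ∀ ℓ : ℕ, ℓ.Prime → ℓ ≠ p → KumDivAt 2 ζ f ℓ)
    (hH : ∀ w ∈ Y, KumIn F' w → w ∈ H) :
    H.relIndex Y ≠ 0 ∧ H.relIndex Y ≤ 2 := by
  refine relIndex_le_of_dichotomy H Y (by norm_num) (fun y₁ hy₁ y₂ hy₂ => ?_)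
  obtain ⟨f₁, h₁, hl₁, hc₁, hd₁⟩ := hY y₁ hy₁
  obtain ⟨f₂, h₂, hl₂, hc₂, hd₂⟩ := hY y₂ hy₂
  rcases piece_dichotomy_two_pos hp hζ hstab he hre hact h₁ h₂ hl₁ hl₂ hc₁ hc₂ hd₁ hd₂ with
    hn | ⟨m, hm, hn⟩
  · exact Or.inl (hH _ hy₁ hn)
  · exact Or.inr ⟨m, hm, hH _ (Y.sub_mem hy₂ (Y.nsmul_mem hy₁ m)) hn⟩

/-- **Index bound, `r = 2`, even valuations everywhere.** -/
theorem piece_relIndex_le_two_unr {ζ : Qb} (hζ : IsPrimitiveRoot ζ 2)
    (hstab : ∀ σ : GQ, ∀ x ∈ F', σ • x ∈ F') (he : e ∉ F') (hre : 2 • e ∈ F')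
    (hact : ∀ σ : GQ, σ • e - e ∈ F') (Y H : AddSubgroup J)
    (hY : ∀ y ∈ Y, ∃ f : GQ → ZMod 2, HasCoord 2 F' e y f ∧ HasLevel y ∧
      ∀ ℓ : ℕ, ℓ.Prime → KumDivAt 2 ζ f ℓ)
    (hH : ∀ w ∈ Y, KumIn F' w → w ∈ H) :
    H.relIndex Y ≠ 0 ∧ H.relIndex Y ≤ 2 := by
  refine relIndex_le_of_dichotomy H Y (by norm_num) (fun y₁ hy₁ y₂ hy₂ => ?_)
  obtain ⟨f₁, h₁, hl₁, hd₁⟩ := hY y₁ hy₁
  obtain ⟨f₂, h₂, hl₂, hd₂⟩ := hY y₂ hy₂
  rcases piece_dichotomy_two_unr hζ hstab he hre hact h₁ h₂ hl₁ hl₂ hd₁ hd₂ with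
    hn | ⟨m, hm, hn⟩
  · exact Or.inl (hH _ hy₁ hn)
  · exact Or.inr ⟨m, hm, hH _ (Y.sub_mem hy₂ (Y.nsmul_mem hy₁ m)) hn⟩

/-- **`r = 2`, positive and even valuations everywhere: `Y ≤ H`.** -/
theorem piece_le_two {ζ : Qb} (hζ : IsPrimitiveRoot ζ 2)
    (hstab : ∀ σ : GQ, ∀ x ∈ F', σ • x ∈ F') (he : e ∉ F') (hre : 2 • e ∈ F')
    (hact : ∀ σ : GQ, σ • e - e ∈ F') (Y H : AddSubgroup J)
    (hY : ∀ y ∈ Y, ∃ f : GQ → ZMod 2, HasCoord 2 F' e y f ∧ HasLevel y ∧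
      f complexConjugation = 0 ∧ ∀ ℓ : ℕ, ℓ.Prime → KumDivAt 2 ζ f ℓ)
    (hH : ∀ w ∈ Y, KumIn F' w → w ∈ H) : Y ≤ H := by
  intro y hy
  obtain ⟨f, h, hl, hc, hd⟩ := hY y hy
  exact hH y hy (piece_trivial_two hζ hstab he hre hact h hl hc hd)

/-- The points of `Y` whose Kummer value at complex conjugation lies in `F'`. -/
def posSub (F' Y : AddSubgroup J) : AddSubgroup J where
  carrier := {y | y ∈ Y ∧ complexConjugation • y - y ∈ F'}
  zero_mem' := ⟨Y.zero_mem, by rw [smul_zero, sub_zero]; exact F'.zero_mem⟩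
  add_mem' := by
    rintro a b ⟨ha, ha'⟩ ⟨hb, hb'⟩
    refine ⟨Y.add_mem ha hb, ?_⟩
    have h : complexConjugation • (a + b) - (a + b) =
        (complexConjugation • a - a) + (complexConjugation • b - b) := by
      rw [smul_add]; abel
    rw [h]
    exact F'.add_mem ha' hb'
  neg_mem' := by
    rintro a ⟨ha, ha'⟩
    refine ⟨Y.neg_mem ha, ?_⟩
    have h : complexConjugation • (-a) - (-a) = -(complexConjugation • a - a) := by
      rw [smul_neg]; abel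
    rw [h]
    exact F'.neg_mem ha'

theorem posSub_le (F' Y : AddSubgroup J) : posSub F' Y ≤ Y := fun _ h => h.1

/-- The coordinate of a point of `posSub` vanishes at complex conjugation. -/
theorem HasCoord.apply_conj_eq_zero (he : e ∉ F') (hre : 2 • e ∈ F') {y : J}
    {f : GQ → ZMod 2} (hf : HasCoord 2 F' e y f) (hy : complexConjugation • y - y ∈ F') :
    f complexConjugation = 0 := by
  have h1 := F'.sub_mem hy (hf complexConjugation)
  have h2 : complexConjugation • y - y -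
      (complexConjugation • y - y - (f complexConjugation).val • e) =
      (((f complexConjugation).val : ℤ)) • e := by
    rw [natCast_zsmul]; abel
  rw [h2, zsmul_mem_iff Nat.prime_two he hre] at h1
  rwa [Int.cast_natCast, ZMod.natCast_zmod_val] at h1

/-- `[Y : posSub] ≤ 2`. -/
theorem posSub_relIndex_le (Y : AddSubgroup J)
    (hY : ∀ y ∈ Y, ∃ f : GQ → ZMod 2, HasCoord 2 F' e y f) :
    (posSub F' Y).relIndex Y ≠ 0 ∧ (posSub F' Y).relIndex Y ≤ 2 := by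
  refine relIndex_le_of_dichotomy _ Y (by norm_num) (fun y₁ hy₁ y₂ hy₂ => ?_)
  obtain ⟨f₁, h₁⟩ := hY y₁ hy₁
  obtain ⟨f₂, h₂⟩ := hY y₂ hy₂
  -- the value of a coordinate at `c` decides the membership
  have key : ∀ (y : J) (f : GQ → ZMod 2), HasCoord 2 F' e y f → f complexConjugation = 0 →
      complexConjugation • y - y ∈ F' := by
    intro y f hf h0
    have := hf complexConjugation
    rwa [h0, ZMod.val_zero, zero_smul, sub_zero] at this
  by_cases h10 : f₁ complexConjugation = 0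
  · exact Or.inl ⟨hy₁, key y₁ f₁ h₁ h10⟩
  · right
    have h11 : f₁ complexConjugation = 1 := by
      generalize f₁ complexConjugation = x at h10
      revert x; decide
    refine ⟨(f₂ complexConjugation).val, ZMod.val_lt _, Y.sub_mem hy₂ (Y.nsmul_mem hy₁ _), ?_⟩
    set m := (f₂ complexConjugation).val with hm
    have hB₁ := h₁ complexConjugation
    have hB₂ := h₂ complexConjugation
    rw [h11] at hB₁
    have hv1 : (1 : ZMod 2).val = 1 := by decide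
    rw [hv1, one_smul] at hB₁
    have e1 : complexConjugation • (y₂ - m • y₁) - (y₂ - m • y₁) =
        (complexConjugation • y₂ - y₂ - m • e) -
          m • (complexConjugation • y₁ - y₁ - e) := by
      rw [smul_sub, smul_comm complexConjugation m y₁]
      generalize complexConjugation • y₂ = Y2
      generalize complexConjugation • y₁ = Y1
      simp only [← natCast_zsmul]
      module
    rw [e1]
    exact F'.sub_mem hB₂ (F'.nsmul_mem hB₁ m)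

/-- **Index bound, `r = 2`, even valuations away from `p`: `[Y : H ∩ Y] ≤ 4`.** -/
theorem piece_relIndex_le_four {p : ℕ} (hp : p.Prime) {ζ : Qb} (hζ : IsPrimitiveRoot ζ 2)
    (hstab : ∀ σ : GQ, ∀ x ∈ F', σ • x ∈ F') (he : e ∉ F') (hre : 2 • e ∈ F')
    (hact : ∀ σ : GQ, σ • e - e ∈ F') (Y H : AddSubgroup J)
    (hY : ∀ y ∈ Y, ∃ f : GQ → ZMod 2, HasCoord 2 F' e y f ∧ HasLevel y ∧
      ∀ ℓ : ℕ, ℓ.Prime → ℓ ≠ p → KumDivAt 2 ζ f ℓ)
    (hH : ∀ w ∈ Y, KumIn F' w → w ∈ H) :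
    H.relIndex Y ≠ 0 ∧ H.relIndex Y ≤ 4 := by
  set P := posSub F' Y with hP
  have h1 := posSub_relIndex_le (F' := F') (e := e) Y (fun y hy => by
    obtain ⟨f, hf, -⟩ := hY y hy
    exact ⟨f, hf⟩)
  have h2 := piece_relIndex_le_two_pos hp hζ hstab he hre hact P H
    (fun y hy => by
      obtain ⟨f, hf, hl, hd⟩ := hY y hy.1
      exact ⟨f, hf, hl, hf.apply_conj_eq_zero he hre hy.2, hd⟩)
    (fun w hw hk => hH w hw.1 hk)
  -- `[Y : H ∩ P] = [P : H ∩ P] [Y : P]`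
  have h3 : (H ⊓ P).relIndex P * P.relIndex Y = (H ⊓ P).relIndex Y :=
    AddSubgroup.relIndex_mul_relIndex (H ⊓ P) P Y inf_le_right (posSub_le F' Y)
  rw [AddSubgroup.inf_relIndex_right] at h3
  have h4 : (H ⊓ P).relIndex Y ≠ 0 := by
    rw [← h3]
    exact mul_ne_zero h2.1 h1.1
  have h5 : H.relIndex Y ≤ (H ⊓ P).relIndex Y :=
    AddSubgroup.relIndex_le_of_le_left inf_le_left h4
  have h6 : H.relIndex Y ∣ (H ⊓ P).relIndex Y :=
    AddSubgroup.relIndex_dvd_of_le_left Y inf_le_left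
  refine ⟨fun h0 => h4 (by rw [h0] at h6; exact Nat.eq_zero_of_zero_dvd h6), ?_⟩
  calc H.relIndex Y ≤ (H ⊓ P).relIndex Y := h5
    _ = H.relIndex P * P.relIndex Y := h3.symm
    _ ≤ 2 * 2 := Nat.mul_le_mul h2.2 h1.2
    _ = 4 := by norm_num

end PieceTwo

end Fermat.Agent.S15.H322
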