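import Fermat.Agent.S15.H322.BaseKum
import Fermat.Agent.S56.H786.KummerH90

/-!
# Row S15 — DESC leaf BASE, part 4 (helper322): `ω`-twisted cocycles `G_ℚ → ℤ/r`, the count

Blueprint `coord/S15-DESC-blueprint.md` §2, pieces with `ψ_i = ω`.  Vocabulary of S56 (on main):
`IsCycExp r σ a` (`σ μ = μ ^ a` on `μ_r`), `H786.zp ζ n = ζ ^ n.val`, `H786.hilbert90`.

`r` a prime, `ζ` a primitive `r`-th root of unity in `ℚ̄`, `f : G_ℚ → ZMod r`.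

* `IsTwCoc r f`       : `f (σ τ) = f σ + ω(σ) f τ`, finite level.
* `IsKumGen r ζ f β`  : `β ≠ 0` and `σ β = ζ ^ f(σ) · β` for all `σ` (a Kummer generator of `f`).
* `KumDivAt r ζ f ℓ`  : every Kummer generator `β` of `f` has `r ∣ v_ℓ(β ^ r)`.
  This is the local condition at `ℓ`; it follows from
  - `kumDivAt_of_cob`   : `f` is a coboundary on the inertia group at ONE place over `ℓ`
                          (in particular `kumDivAt_of_unram`: `f = 0` there);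
  - at `ℓ = r` from flatness (`S15.H379.peuKummer`).
* `IsTwCoc.exists_isKumGen`   : Hilbert 90.
* `IsKumGen.exists_rat`       : `β ^ r ∈ ℚˣ`.
* `tw_trivial_odd`    : `r` odd, `KumDivAt` at all primes ⟹ `f` is a coboundary.
* `tw_dichotomy_odd`  : `r` odd prime, `f₁, f₂` with `KumDivAt` at all `ℓ ≠ p`:
                        `f₁` is a coboundary or `f₂ = m f₁ + coboundary`.
* `tw_trivial_two`    : `r = 2`, `KumDivAt` at all primes and `f c = 0` (`c` complex conjugation)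
                        ⟹ `f = 0`.
-/

set_option autoImplicit false

namespace Fermat.Agent.S15.H322

open Fermat.Agent.S56 Fermat.Agent.S56.H786

section Defs

variable (r : ℕ)

/-- `f` is an `ω`-twisted cocycle of finite level on `G_ℚ`. -/
structure IsTwCoc (f : GQ → ZMod r) : Prop where
  map_mul : ∀ σ τ : GQ, ∀ a : ℕ, IsCycExp r σ a → f (σ * τ) = f σ + (a : ZMod r) * f τ
  level : ∃ L : IntermediateField ℚ Qb, FiniteDimensional ℚ L ∧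
    ∀ σ τ : GQ, (∀ x ∈ L, τ x = x) → f (σ * τ) = f σ

/-- `β` is a Kummer generator of `f`. -/
def IsKumGen (ζ : Qb) (f : GQ → ZMod r) (β : Qb) : Prop :=
  β ≠ 0 ∧ ∀ σ : GQ, σ β = zp ζ (f σ) * β

/-- The local condition at `ℓ`: the `r`-th power of every Kummer generator of `f` has `ℓ`-adic
valuation divisible by `r`. -/
def KumDivAt (ζ : Qb) (f : GQ → ZMod r) (ℓ : ℕ) : Prop :=
  ∀ (β : Qb) (a : ℚ), IsKumGen r ζ f β → β ^ r = (a : Qb) → (r : ℤ) ∣ padicValRat ℓ a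

/-- `f` is the coboundary of `n`. -/
def IsTwCob (f : GQ → ZMod r) (n : ZMod r) : Prop :=
  ∀ σ : GQ, ∀ a : ℕ, IsCycExp r σ a → f σ = ((a : ZMod r) - 1) * n

end Defs

section Basic

variable {r : ℕ} [NeZero r] {ζ : Qb}

/-- **Hilbert 90.** -/
theorem IsTwCoc.exists_isKumGen (hζ : IsPrimitiveRoot ζ r) {f : GQ → ZMod r}
    (hf : IsTwCoc r f) : ∃ β : Qb, IsKumGen r ζ f β := by
  obtain ⟨L, hL, hlev⟩ := hf.level
  obtain ⟨β, hβ0, hβ⟩ := hilbert90 hζ ⊤ f (fun σ _ τ _ a ha => hf.map_mul σ τ a ha)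
    ⟨L, hL, fun σ _ τ _ hτ => hlev σ τ hτ⟩
  exact ⟨β, hβ0, fun σ => hβ σ (Subgroup.mem_top σ)⟩

/-- The `r`-th power of a Kummer generator is a nonzero rational number. -/
theorem IsKumGen.exists_rat (hζ : IsPrimitiveRoot ζ r) {f : GQ → ZMod r} {β : Qb}
    (hβ : IsKumGen r ζ f β) : ∃ a : ℚ, a ≠ 0 ∧ β ^ r = (a : Qb) := by
  have hgal : IsGalois ℚ Qb := Fermat.Agent.S54.isGalois_algebraicClosure_rat
  have hfix : ∀ σ : GQ, σ (β ^ r) = β ^ r := by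
    intro σ
    rw [map_pow, hβ.2 σ, mul_pow, zp_pow_self hζ.pow_eq_one, one_mul]
  obtain ⟨a, ha⟩ := (InfiniteGalois.mem_range_algebraMap_iff_fixed (k := ℚ) (K := Qb)
    (β ^ r)).mpr hfix
  refine ⟨a, ?_, ?_⟩
  · rintro rfl
    rw [map_zero] at ha
    exact hβ.1 (pow_eq_zero_iff (NeZero.ne r) |>.mp ha.symm)
  · rw [← ha, eq_ratCast]

/-- A root of unity times a rational number is a Kummer generator of a coboundary; conversely a
Kummer generator of `f` of this shape forces `f` to be a coboundary. -/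
theorem isTwCob_of_eq_mul (hζ : IsPrimitiveRoot ζ r) {f : GQ → ZMod r} {β : Qb}
    (hβ : IsKumGen r ζ f β) {ξ : Qb} (hξ : ξ ^ r = 1) {b : ℚ} (hb : β = ξ * (b : Qb)) :
    ∃ n : ZMod r, IsTwCob r f n := by
  obtain ⟨n, rfl⟩ := exists_zp_eq hζ hξ
  refine ⟨n, fun σ a ha => ?_⟩
  have hb0 : (b : Qb) ≠ 0 := by
    intro h0
    rw [h0, mul_zero] at hb
    exact hβ.1 hb
  have h1 := hβ.2 σ
  rw [hb, map_mul, apply_zp hζ.pow_eq_one ha, map_ratCast, ← mul_assoc, ← zp_add hζ.pow_eq_one] at h1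
  have h2 := zp_injective hζ (mul_right_cancel₀ hb0 h1)
  -- `a n = f σ + n`
  linear_combination -h2

/-- `(zp ζ x) ^ m = zp ζ (m x)`. -/
theorem zp_pow_nat (hζ : IsPrimitiveRoot ζ r) (x : ZMod r) (m : ℕ) :
    zp ζ x ^ m = zp ζ ((m : ZMod r) * x) :=
  (zp_natCast_mul hζ.pow_eq_one m x).symm

/-- If `β₂ = ξ β₁ ^ m b` for Kummer generators `β_i` of `f_i`, then `f₂ = m f₁ + coboundary`. -/
theorem isTwCob_sub_of_eq_mul (hζ : IsPrimitiveRoot ζ r) {f₁ f₂ : GQ → ZMod r} {β₁ β₂ : Qb}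
    (hβ₁ : IsKumGen r ζ f₁ β₁) (hβ₂ : IsKumGen r ζ f₂ β₂) {ξ : Qb} (hξ : ξ ^ r = 1) {m : ℕ}
    {b : ℚ} (hb : β₂ = ξ * (β₁ ^ m * (b : Qb))) :
    ∃ n : ZMod r, IsTwCob r (fun σ => f₂ σ - (m : ZMod r) * f₁ σ) n := by
  obtain ⟨n, rfl⟩ := exists_zp_eq hζ hξ
  refine ⟨n, fun σ a ha => ?_⟩
  have hrest : β₁ ^ m * (b : Qb) ≠ 0 := by
    intro h0
    rw [h0, mul_zero] at hb
    exact hβ₂.1 hb
  have h1 := hβ₂.2 σ
  rw [hb, map_mul, map_mul, map_pow, apply_zp hζ.pow_eq_one ha, map_ratCast, hβ₁.2 σ, mul_pow,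
    zp_pow_nat hζ] at h1
  have h2 : zp ζ ((a : ZMod r) * n + (m : ZMod r) * f₁ σ) * (β₁ ^ m * (b : Qb)) =
      zp ζ (f₂ σ + n) * (β₁ ^ m * (b : Qb)) := by
    rw [zp_add hζ.pow_eq_one, zp_add hζ.pow_eq_one]
    linear_combination h1
  have h3 := zp_injective hζ (mul_right_cancel₀ hrest h2)
  show f₂ σ - (m : ZMod r) * f₁ σ = ((a : ZMod r) - 1) * n
  linear_combination -h3

end Basic

section Local

variable {r : ℕ} [NeZero r] {ζ : Qb}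

/-- **Local condition from a coboundary on inertia.**  If `f` is, on the inertia group at ONE place
over `ℓ`, the coboundary of some `n`, then `KumDivAt r ζ f ℓ`. -/
theorem kumDivAt_of_cob (hζ : IsPrimitiveRoot ζ r) {f : GQ → ZMod r} {ℓ : ℕ} (hℓ : ℓ.Prime)
    (A : ValuationSubring Qb) (hA : A.LiesOverPrime ℓ) (n : ZMod r)
    (hcob : ∀ σ ∈ A.inertiaSubgroupIn ℚ, ∀ a : ℕ, IsCycExp r σ a →
      f σ = ((a : ZMod r) - 1) * n) :
    KumDivAt r ζ f ℓ := by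
  intro β a hβ hβa
  have ha : a ≠ 0 := by
    rintro rfl
    rw [Rat.cast_zero] at hβa
    exact hβ.1 (pow_eq_zero_iff (NeZero.ne r) |>.mp hβa)
  refine dvd_padicValRat_of_kummer A hℓ hA ha (ξ := zp ζ n) hβa (zp_pow_self hζ.pow_eq_one n) ?_
  intro σ hσ
  obtain ⟨c, hc⟩ := exists_isCycExp hζ σ
  rw [hβ.2 σ, apply_zp hζ.pow_eq_one hc, hcob σ hσ c hc, mul_comm (zp ζ _) β, mul_assoc,
    ← zp_add hζ.pow_eq_one]
  congr 2
  ring

/-- **Local condition from unramifiedness.** -/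
theorem kumDivAt_of_unram (hζ : IsPrimitiveRoot ζ r) {f : GQ → ZMod r} {ℓ : ℕ} (hℓ : ℓ.Prime)
    (A : ValuationSubring Qb) (hA : A.LiesOverPrime ℓ)
    (hunr : ∀ σ ∈ A.inertiaSubgroupIn ℚ, f σ = 0) : KumDivAt r ζ f ℓ :=
  kumDivAt_of_cob hζ hℓ A hA 0 (fun σ hσ a _ => by rw [hunr σ hσ, mul_zero])

end Local

section Count

variable {r : ℕ} {ζ : Qb}

/-- **`r` odd, unramified everywhere ⟹ coboundary.** -/
theorem tw_trivial_odd (hr : r.Prime) (hr2 : r ≠ 2) (hζ : IsPrimitiveRoot ζ r)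
    {f : GQ → ZMod r} (hf : IsTwCoc r f)
    (hdiv : ∀ ℓ : ℕ, ℓ.Prime → KumDivAt r ζ f ℓ) : ∃ n : ZMod r, IsTwCob r f n := by
  have : NeZero r := ⟨hr.ne_zero⟩
  obtain ⟨β, hβ⟩ := hf.exists_isKumGen hζ
  obtain ⟨a, ha, hβa⟩ := hβ.exists_rat hζ
  obtain ⟨ξ, hξ, b, -, hb⟩ := kummer_trivial_odd (hr.odd_of_ne_two hr2) ha hβa
    (fun ℓ hℓ => hdiv ℓ hℓ β a hβ hβa)
  exact isTwCob_of_eq_mul hζ hβ hξ hb

/-- **Count, `r` an odd prime.**  Two twisted cocycles satisfying the local conditions at all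
primes `ℓ ≠ p`: the first is a coboundary, or the second is a multiple of the first up to a
coboundary.  (So the classes of such cocycles form a group of order dividing `r`.) -/
theorem tw_dichotomy_odd {p : ℕ} (hp : p.Prime) (hr : r.Prime) (hr2 : r ≠ 2)
    (hζ : IsPrimitiveRoot ζ r) {f₁ f₂ : GQ → ZMod r} (hf₁ : IsTwCoc r f₁) (hf₂ : IsTwCoc r f₂)
    (hdiv₁ : ∀ ℓ : ℕ, ℓ.Prime → ℓ ≠ p → KumDivAt r ζ f₁ ℓ)
    (hdiv₂ : ∀ ℓ : ℕ, ℓ.Prime → ℓ ≠ p → KumDivAt r ζ f₂ ℓ) :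
    (∃ n : ZMod r, IsTwCob r f₁ n) ∨
      ∃ m : ℕ, m < r ∧ ∃ n : ZMod r, IsTwCob r (fun σ => f₂ σ - (m : ZMod r) * f₁ σ) n := by
  have : NeZero r := ⟨hr.ne_zero⟩
  obtain ⟨β₁, hβ₁⟩ := hf₁.exists_isKumGen hζ
  obtain ⟨β₂, hβ₂⟩ := hf₂.exists_isKumGen hζ
  obtain ⟨a₁, ha₁, hβa₁⟩ := hβ₁.exists_rat hζ
  obtain ⟨a₂, ha₂, hβa₂⟩ := hβ₂.exists_rat hζ
  rcases kummer_dichotomy_odd hp hr hr2 ha₁ ha₂ hβa₁ hβa₂
    (fun ℓ hℓ hℓp => hdiv₁ ℓ hℓ hℓp β₁ a₁ hβ₁ hβa₁)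
    (fun ℓ hℓ hℓp => hdiv₂ ℓ hℓ hℓp β₂ a₂ hβ₂ hβa₂) with
    ⟨ξ, hξ, b, -, hb⟩ | ⟨m, hm, ξ, hξ, b, -, hb⟩
  · left
    exact isTwCob_of_eq_mul hζ hβ₁ hξ hb
  · right
    exact ⟨m, hm, isTwCob_sub_of_eq_mul hζ hβ₁ hβ₂ hξ hb⟩

end Count

end Fermat.Agent.S15.H322
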