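import Fermat.Agent.S15.H11.Tau0
import Fermat.Agent.S15.H322.BaseTw
import Fermat.Agent.S15.H322.BaseChar

/-!
# Row S15 — DESC leaf STEP, part 2 (helper322): the choice of the inertia element `τ₀` at `p`

Route 208 (`coord/S15-LOCp-helper208.md`): the ramification at `p` of the cocycles is measured at
ONE inertia element `τ₀` at a place over `p`.  `τ₀` is *good* (`IsGoodTau p r τ₀`) if

* `char` : every character `G_ℚ → ℤ/r` unramified outside `p` which vanishes at `τ₀` is trivial;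
* `kum`  : every Kummer cocycle vanishing at `τ₀` has a Kummer class of `p`-adic valuation
           divisible by `r` (`KumDivAt r ζ f p`).

`exists_isGoodTau` : a good `τ₀` exists in the inertia group of every place over `p`
(`r ≠ p` primes).  Proof: `τ₀` moves an `r`-th root `π` of `p` (`S15.H11.Tau0`, helper11) and is
non-trivial for a generator of the group of characters unramified outside `p`
(`BaseChar.dichotomy`: that group is cyclic; Minkowski: a non-trivial one is ramified at `p`);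
a group is not the union of two proper subgroups.
-/

set_option autoImplicit false
set_option linter.unusedSectionVars false
set_option linter.style.haveILetI false

namespace Fermat.Agent.S15.H322

open Fermat.Agent.S56 Fermat.Agent.S56.H786

/-- `τ₀` detects the ramification at `p` of characters and Kummer cocycles modulo `r`. -/
structure IsGoodTau (p r : ℕ) (τ₀ : GQ) : Prop where
  char : ∀ χ : GQ → ZMod r, IsCharUnrOutside p χ → χ τ₀ = 0 → ∀ σ, χ σ = 0
  kum : ∀ ζ : Qb, IsPrimitiveRoot ζ r → ∀ f : GQ → ZMod r, f τ₀ = 0 → KumDivAt r ζ f p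

section Good

variable {p r : ℕ}

/-- An inertia element moving an `r`-th root of `p` detects the valuation at `p` of Kummer
classes. -/
theorem kumDivAt_of_moves (hp : p.Prime) (hr : r.Prime) (hrp : r ≠ p)
    (A : ValuationSubring Qb) (hA : A.LiesOverPrime p) {π : Qb} (hπ : π ^ r = (p : Qb))
    {τ : GQ} (hτ : τ ∈ A.inertiaSubgroupIn ℚ) (hτπ : τ π ≠ π)
    (ζ : Qb) (f : GQ → ZMod r) (hf : f τ = 0) : KumDivAt r ζ f p := by
  haveI : NeZero r := ⟨hr.ne_zero⟩
  intro β a hβ hβa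
  have ha : a ≠ 0 := by
    rintro rfl
    rw [Rat.cast_zero] at hβa
    exact hβ.1 (pow_eq_zero_iff hr.ne_zero |>.mp hβa)
  have hfix : τ β = β := by
    rw [hβ.2 τ, hf, zp_zero, one_mul]
  exact Fermat.Agent.S15.H11.dvd_padicValRat_of_fixed_by A hp hr hrp hA hπ hτ hτπ ha hβa hfix

/-- **A good inertia element exists** at every place over `p`. -/
theorem exists_isGoodTau (hp : p.Prime) (hr : r.Prime) (hrp : r ≠ p)
    (A : ValuationSubring Qb) (hA : A.LiesOverPrime p) :
    ∃ τ₀ ∈ A.inertiaSubgroupIn ℚ, IsGoodTau p r τ₀ := by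
  haveI : NeZero r := ⟨hr.ne_zero⟩
  haveI : Fact r.Prime := ⟨hr⟩
  obtain ⟨π, hπ⟩ := IsAlgClosed.exists_pow_nat_eq (p : Qb) hr.pos
  obtain ⟨b, hb, hbπ⟩ := Fermat.Agent.S15.H11.exists_inertia_moves_root A hp hr hA hπ
  by_cases hex : ∃ χ₁ : GQ → ZMod r, IsCharUnrOutside p χ₁ ∧ ∃ σ, χ₁ σ ≠ 0
  · obtain ⟨χ₁, hχ₁, σ₁, hσ₁⟩ := hex
    -- `χ₁` is ramified at `A`
    obtain ⟨a, ha, haχ⟩ : ∃ a ∈ A.inertiaSubgroupIn ℚ, χ₁ a ≠ 0 := by
      by_contra hcon
      push Not at hcon
      exact hσ₁ (hχ₁.eq_zero_of_unram ⟨A, hA, hcon⟩ σ₁)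
    -- an element of the inertia group with both properties
    obtain ⟨τ₀, hτ₀, hτ₀χ, hτ₀π⟩ :
        ∃ τ₀ ∈ A.inertiaSubgroupIn ℚ, χ₁ τ₀ ≠ 0 ∧ τ₀ π ≠ π := by
      by_cases haπ : a π = π
      · by_cases hbχ : χ₁ b = 0
        · refine ⟨b * a, Subgroup.mul_mem _ hb ha, ?_, ?_⟩
          · rw [hχ₁.map_mul, hbχ, zero_add]
            exact haχ
          · rw [AlgEquiv.mul_apply, haπ]
            exact hbπ
        · exact ⟨b, hb, hbχ, hbπ⟩
      · exact ⟨a, ha, haχ, haπ⟩
    refine ⟨τ₀, hτ₀, ?_, fun ζ _ f hf => kumDivAt_of_moves hp hr hrp A hA hπ hτ₀ hτ₀π ζ f hf⟩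
    intro χ hχ hχ0 σ
    rcases hχ₁.dichotomy hχ hp hr hrp (Nat.card_zmod r) with h0 | ⟨m, -, hm⟩
    · exact absurd (h0 τ₀) hτ₀χ
    · have h1 := hm τ₀
      rw [hχ0, nsmul_eq_mul] at h1
      have h2 : (m : ZMod r) = 0 := by
        rcases mul_eq_zero.mp h1.symm with h | h
        · exact h
        · exact absurd h hτ₀χ
      rw [hm σ, nsmul_eq_mul, h2, zero_mul]
  · push Not at hex
    exact ⟨b, hb, fun χ hχ _ σ => hex χ hχ σ,
      fun ζ _ f hf => kumDivAt_of_moves hp hr hrp A hA hπ hb hbπ ζ f hf⟩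

end Good

end Fermat.Agent.S15.H322
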