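import Fermat.Agent.S15.H322.StepCoord
import Fermat.Agent.S15.H322.StepTau
import Fermat.Agent.S15.H322.BasePieceTwo

/-!
# Row S15 — DESC leaf STEP (helper322): the step bounds for all Eisenstein pieces

Frozen target: `Fermat.Agent.S15.H975.StepStatement` (`S15/H975/DescSpec2.lean`).

    step_of_leaves : G3Statement → Peu1JStatement → PeuOmegaJStatement → StepStatement

`K = (c - 1) Y(W_E)` (`c` complex conjugation), `U₀ = (τ₀ - 1) Y(W_E)`, `τ₀` a good inertia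
element at `p` (`StepTau.lean`).  For a piece `F' ≤ F ≤ W_E` with generator `e`, `y ∈ Y(F)` has a
coordinate `f_y : G_ℚ → ℤ/r`, `σ y - y ≡ f_y(σ) e mod F'` (`StepCoord.lean`), and

* `f_y = 0` on inertia at `ℓ ∤ p r`                         (G3);
* piece `1`, `r` odd: `f_y` is a character, `f_y = 0` on inertia at `r`        (PEU-1);
* piece `ω` (all pieces if `r = 2`): `f_y` is a Kummer cocycle, `r ∣ v_r(a_y)`  (PEU-ω);
* `F ∩ U₀ ≤ F'` ⟹ `f_y(τ₀) = 0`;   `F ∩ K ≤ F'` ⟹ `f_y(c) = 0` (`a_y > 0` for `r = 2`).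

The counts are those of `BasePiece.lean` (`r` odd) and `BasePieceTwo.lean` (`r = 2`).
-/

set_option autoImplicit false
set_option linter.unusedSectionVars false
set_option linter.style.haveILetI false

namespace Fermat.Agent.S15.H322

open Fermat.Agent.S56 Fermat.Agent.S56.H786 ModularCurve
open Fermat.Agent.S15.H975 hiding Qb

section Local

variable {p : ℕ} [NeZero p] {S : Set ℕ} {r : ℕ} {F' F : AddSubgroup (JZero p)} {e : JZero p}

/-- Complex conjugation inverts the roots of unity. -/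
theorem complexConjugation_root_h322 {m : ℕ} (hm : m ≠ 0) {t : Qb} (ht : t ^ m = 1) :
    complexConjugation t = t⁻¹ := by
  apply complexEmbedding.toRingHom.injective
  show complexEmbedding (complexConjugation t) = complexEmbedding t⁻¹
  rw [complexEmbedding_complexConjugation, map_inv₀]
  have h1 : (complexEmbedding t) ^ m = 1 := by rw [← map_pow, ht, map_one]
  exact (Complex.inv_eq_conj (Complex.norm_eq_one_of_pow_eq_one h1 hm)).symm

/-- G3: the coordinate vanishes on inertia at `ℓ ∤ p r`. -/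
theorem coord_unram_of_g3 (hG3 : G3Statement) (hp : p.Prime) (hr : r.Prime)
    (he : e ∉ F') (hre : r • e ∈ F') {y : JZero p} (hy : y ∈ sel p r F)
    {f : GQ → ZMod r} (hf : HasCoord r F' e y f) {ℓ : ℕ} (hℓ : ℓ.Prime) (hℓp : ℓ ≠ p)
    (hℓr : ℓ ≠ r) (B : ValuationSubring Qb) (hB : B.LiesOverPrime ℓ) (τ : GQ)
    (hτ : τ ∈ B.inertiaSubgroupIn ℚ) : f τ = 0 := by
  have h1 : τ • y = y := hG3 p hp r hr ℓ hℓ hℓp hℓr B hB τ hτ y (hy.1 τ)
  refine hf.eq_zero_of_sub_mem hr he hre ?_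
  rw [h1, sub_self]
  exact F'.zero_mem

/-- G3: the local condition at `ℓ ∤ p r`, Kummer form. -/
theorem coord_kumDivAt_of_g3 (hG3 : G3Statement) (hp : p.Prime) (hr : r.Prime)
    (he : e ∉ F') (hre : r • e ∈ F') {y : JZero p} (hy : y ∈ sel p r F)
    {f : GQ → ZMod r} (hf : HasCoord r F' e y f) {ζ : Qb} (hζ : IsPrimitiveRoot ζ r)
    {ℓ : ℕ} (hℓ : ℓ.Prime) (hℓp : ℓ ≠ p) (hℓr : ℓ ≠ r) : KumDivAt r ζ f ℓ := by
  haveI : NeZero r := ⟨hr.ne_zero⟩
  obtain ⟨B, hB⟩ := Fermat.Agent.S54.exists_valuationSubring_liesOver ℓ hℓ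
  exact kumDivAt_of_unram hζ hℓ B hB
    (fun τ hτ => coord_unram_of_g3 hG3 hp hr he hre hy hf hℓ hℓp hℓr B hB τ hτ)

/-- PEU-ω: the local condition at `ℓ = r`. -/
theorem coord_kumDivAt_of_peu (hPw : PeuOmegaJStatement) (hp : p.Prime) (hr : r.Prime)
    (hrp : r ≠ p) (hle : F' ≤ F) (hFt : F ≤ tors p r) (hst' : IsStable p F')
    (hst : IsStable p F) (hidx : F'.relIndex F = r) {ζ : Qb} (hζ : IsPrimitiveRoot ζ r)
    (hω : ∀ (σ : Gal) (k : ℕ), σ ζ = ζ ^ k → ∀ f ∈ F, σ • f - k • f ∈ F')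
    (heF : e ∈ F) (he : e ∉ F') (hre : r • e ∈ F') {y : JZero p} (hy : y ∈ sel p r F)
    {f : GQ → ZMod r} (hf : HasCoord r F' e y f) : KumDivAt r ζ f r := by
  haveI : NeZero r := ⟨hr.ne_zero⟩
  intro β a hβ hβa
  have ha : a ≠ 0 := by
    rintro rfl
    rw [Rat.cast_zero] at hβa
    exact hβ.1 (pow_eq_zero_iff hr.ne_zero |>.mp hβa)
  refine hPw p hp r hr hrp F' F hle hFt hst' hst hidx ζ hζ hω e heF he y hy a β ha
    (by rw [hβa, eq_ratCast]) (fun σ m hσm => ?_)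
  -- `ζ ^ m = ζ ^ f(σ)`
  have h1 : zp ζ ((m : ℕ) : ZMod r) * β = zp ζ (f σ) * β := by
    rw [zp_natCast hζ.pow_eq_one, ← hσm, hβ.2 σ]
  have h2 : ((m : ℕ) : ZMod r) = f σ := zp_injective hζ (mul_right_cancel₀ hβ.1 h1)
  have h3 := val_smul_sub_zsmul_mem hr he hre (f σ) (m : ℤ) (by push_cast; exact h2)
  have h4 : σ • y - y - m • e = (σ • y - y - (f σ).val • e) + ((f σ).val • e - (m : ℤ) • e) := by
    rw [natCast_zsmul]; abel
  rw [h4]
  exact F'.add_mem (hf σ) h3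

/-- The coordinate vanishes at `g` when the piece does not meet `(g - 1) Y(W_E)`. -/
theorem coord_eq_zero_of_inf_le (hr : r.Prime) (hF : F ≤ eis p S r)
    (he : e ∉ F') (hre : r • e ∈ F') {g : Gal} (hg : F ⊓ cocImage p S r g ≤ F')
    {y : JZero p} (hy : y ∈ sel p r F) {f : GQ → ZMod r} (hf : HasCoord r F' e y f) :
    f g = 0 := by
  refine hf.eq_zero_of_sub_mem hr he hre (hg ⟨hy.2 g, ?_⟩)
  exact mem_cocImage.mpr ⟨y, sel_mono r hF hy, rfl⟩

end Local

section Cases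

variable {p : ℕ} [NeZero p] {S : Set ℕ} {r : ℕ} {F' F : AddSubgroup (JZero p)}

/-- **Pieces with trivial action, `r` odd.** -/
theorem stepBound_triv_odd (hG3 : G3Statement) (hP1 : Peu1JStatement)
    (hp : p.Prime) (hr : r.Prime) (hr2 : r ≠ 2) (hrp : r ≠ p)
    {τ₀ : Gal} (hgood : IsGoodTau p r τ₀) (K : AddSubgroup (JZero p))
    (hF : F ≤ eis p S r) (hle : F' ≤ F) (hst' : IsStable p F') (hst : IsStable p F)
    (hidx : F'.relIndex F = r) (htriv : ∀ σ : Gal, ∀ f ∈ F, σ • f - f ∈ F') :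
    StepBound p r K (cocImage p S r τ₀) F' F := by
  haveI : NeZero r := ⟨hr.ne_zero⟩
  have hFt : F ≤ tors p r := hF.trans (eis_le_tors_h322 S r)
  obtain ⟨e, heF, he⟩ := exists_gen_of_relIndex hr hidx
  have hre : r • e ∈ F' := by
    rw [mem_tors_iff.mp (hFt heF)]; exact F'.zero_mem
  have hact : ∀ σ : GQ, σ • e - e ∈ F' := fun σ => htriv σ e heF
  have hstab : ∀ σ : GQ, ∀ x ∈ F', σ • x ∈ F' := hst'
  -- the local conditions away from `p`
  have hY : ∀ y ∈ sel p r F, ∃ f : GQ → ZMod r, HasCoord r F' e y f ∧ HasLevel y ∧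
      ∀ ℓ : ℕ, ℓ.Prime → ℓ ≠ p → ∃ B : ValuationSubring Qb,
        B.LiesOverPrime ℓ ∧ ∀ σ ∈ B.inertiaSubgroupIn ℚ, f σ = 0 := by
    intro y hy
    obtain ⟨f, hf⟩ := exists_hasCoord hr hidx heF he hre hy
    refine ⟨f, hf, hasLevel_jzero y, fun ℓ hℓ hℓp => ?_⟩
    obtain ⟨B, hB⟩ := Fermat.Agent.S54.exists_valuationSubring_liesOver ℓ hℓ
    refine ⟨B, hB, fun τ hτ => ?_⟩
    by_cases hℓr : ℓ = r
    · subst hℓr
      exact hf.eq_zero_of_sub_mem hr he hre
        (hP1 p hp ℓ hr hrp hr2 B hB τ hτ F' F hle hFt hst' hst hidx htriv y hy)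
    · exact coord_unram_of_g3 hG3 hp hr he hre hy hf hℓ hℓp hℓr B hB τ hτ
  have hH : ∀ w ∈ sel p r F, KumIn F' w → w ∈ sel p r F' ⊔ F :=
    fun w hw hk => mem_sup_of_kumIn hw hk
  have hs : selIndex p r F' F ≠ 0 ∧ selIndex p r F' F ≤ r :=
    piece_relIndex_le_triv hp hr hrp hstab he hre hact (sel p r F) (sel p r F' ⊔ F) hY hH
  have hs1 : F ⊓ cocImage p S r τ₀ ≤ F' → selIndex p r F' F = 1 := by
    intro hU
    refine selIndex_eq_one_of_le (fun y hy => ?_)
    obtain ⟨f, hf, hl, hunr⟩ := hY y hy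
    have hchar := hf.isCharUnrOutside hr hstab he hre hact hl hunr
    have h0 : ∀ σ, f σ = 0 :=
      hgood.char f hchar (coord_eq_zero_of_inf_le hr hF he hre hU hy hf)
    exact hH y hy (hf.kumIn_of_eq_zero h0)
  have hg : fixIndex p r F' F = r := fixIndex_eq_of_triv hFt hidx htriv
  refine ⟨hs.1, fun _ hU => ?_, fun _ _ => ?_, fun _ hU => ?_, fun _ _ => ?_⟩
  · rw [hs1 hU, hg, one_mul]
  · rw [hg]; exact hs.2
  · rw [hs1 hU, hg]; exact hr.one_le
  · rw [hg]
    exact hs.2.trans (Nat.le_mul_of_pos_left r hr.pos)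

/-- **Pieces of type `ω`, `r` odd.** -/
theorem stepBound_tw_odd (hG3 : G3Statement) (hPw : PeuOmegaJStatement)
    (hp : p.Prime) (hr : r.Prime) (hr2 : r ≠ 2) (hrp : r ≠ p)
    {τ₀ : Gal} (hgood : IsGoodTau p r τ₀)
    (hF : F ≤ eis p S r) (hle : F' ≤ F) (hst' : IsStable p F') (hst : IsStable p F)
    (hidx : F'.relIndex F = r) {ζ : Qb} (hζ : IsPrimitiveRoot ζ r)
    (hω : ∀ (σ : Gal) (k : ℕ), σ ζ = ζ ^ k → ∀ f ∈ F, σ • f - k • f ∈ F') :
    StepBound p r (cocImage p S r complexConjugation) (cocImage p S r τ₀) F' F := by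
  haveI : NeZero r := ⟨hr.ne_zero⟩
  have hFt : F ≤ tors p r := hF.trans (eis_le_tors_h322 S r)
  obtain ⟨e, heF, he⟩ := exists_gen_of_relIndex hr hidx
  have hre : r • e ∈ F' := by
    rw [mem_tors_iff.mp (hFt heF)]; exact F'.zero_mem
  have hact : ∀ σ : GQ, ∀ a : ℕ, IsCycExp r σ a → σ • e - a • e ∈ F' :=
    fun σ a ha => hω σ a (ha ζ hζ.pow_eq_one) e heF
  have hstab : ∀ σ : GQ, ∀ x ∈ F', σ • x ∈ F' := hst'
  have heY : e ∈ sel p r F := le_sel_of_stable hst hFt heF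
  have heH : e ∈ sel p r F' ⊔ F := AddSubgroup.mem_sup_right heF
  -- the piece meets `K`
  have hnotK : ¬ F ⊓ cocImage p S r complexConjugation ≤ F' := by
    intro hK
    have h1 : complexConjugation • e - e ∈ F' :=
      hK ⟨F.sub_mem (hst _ e heF) heF, mem_cocImage.mpr ⟨e, sel_mono r hF heY, rfl⟩⟩
    have hcζ : complexConjugation ζ = ζ ^ (r - 1) := by
      rw [complexConjugation_root_h322 hr.ne_zero hζ.pow_eq_one]
      have hζ0 : ζ ≠ 0 := hζ.ne_zero hr.ne_zero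
      apply mul_left_cancel₀ hζ0
      rw [mul_inv_cancel₀ hζ0, ← pow_succ', Nat.sub_add_cancel hr.pos, hζ.pow_eq_one]
    have h2 := hω complexConjugation (r - 1) hcζ e heF
    have h3 : ((r : ℤ) - 2) • e ∈ F' := by
      have e1 : ((r : ℤ) - 2) • e =
          (complexConjugation • e - e) - (complexConjugation • e - (r - 1) • e) := by
        have e2 : ((r - 1 : ℕ) : ℤ) = (r : ℤ) - 1 := by
          rw [Nat.cast_sub hr.one_le]; simp
        rw [← natCast_zsmul e (r - 1), e2]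
        generalize complexConjugation • e = E1
        module
      rw [e1]
      exact F'.sub_mem h1 h2
    rw [zsmul_mem_iff hr he hre] at h3
    push_cast at h3
    rw [ZMod.natCast_self, zero_sub, neg_eq_zero] at h3
    have h4 : ((2 : ℕ) : ZMod r) = 0 := by exact_mod_cast h3
    rw [ZMod.natCast_eq_zero_iff] at h4
    exact hr2 ((Nat.prime_dvd_prime_iff_eq hr Nat.prime_two).mp h4)
  -- the local conditions away from `p`
  have hY : ∀ y ∈ sel p r F, ∃ f : GQ → ZMod r, HasCoord r F' e y f ∧ HasLevel y ∧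
      ∀ ℓ : ℕ, ℓ.Prime → ℓ ≠ p → KumDivAt r ζ f ℓ := by
    intro y hy
    obtain ⟨f, hf⟩ := exists_hasCoord hr hidx heF he hre hy
    refine ⟨f, hf, hasLevel_jzero y, fun ℓ hℓ hℓp => ?_⟩
    by_cases hℓr : ℓ = r
    · subst hℓr
      exact coord_kumDivAt_of_peu hPw hp hr hrp hle hFt hst' hst hidx hζ hω heF he hre hy hf
    · exact coord_kumDivAt_of_g3 hG3 hp hr he hre hy hf hζ hℓ hℓp hℓr
  have hH : ∀ w ∈ sel p r F, KumIn F' w → w ∈ sel p r F' ⊔ F :=
    fun w hw hk => mem_sup_of_kumIn hw hk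
  have hs : selIndex p r F' F ≠ 0 ∧ selIndex p r F' F ≤ r :=
    piece_relIndex_le_tw hp hr hr2 hζ hstab he hre hact (sel p r F) (sel p r F' ⊔ F)
      heY heH hY hH
  have hs1 : F ⊓ cocImage p S r τ₀ ≤ F' → selIndex p r F' F = 1 := by
    intro hU
    refine selIndex_eq_one_of_le ?_
    refine piece_le_tw hr hr2 hζ hstab he hre hact (sel p r F) (sel p r F' ⊔ F) heY heH
      (fun y hy => ?_) hH
    obtain ⟨f, hf, hl, hd⟩ := hY y hy
    refine ⟨f, hf, hl, fun ℓ hℓ => ?_⟩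
    by_cases hℓp : ℓ = p
    · subst hℓp
      exact hgood.kum ζ hζ f (coord_eq_zero_of_inf_le hr hF he hre hU hy hf)
    · exact hd ℓ hℓ hℓp
  have hg : 1 ≤ fixIndex p r F' F := fixIndex_pos hr hle hst' hFt hidx
  refine ⟨hs.1, fun hK _ => absurd hK hnotK, fun hK _ => absurd hK hnotK,
    fun _ hU => ?_, fun _ _ => ?_⟩
  · rw [hs1 hU]; exact hg
  · exact hs.2.trans (Nat.le_mul_of_pos_right r hg)

/-- **All pieces, `r = 2`.** -/
theorem stepBound_two (hG3 : G3Statement) (hPw : PeuOmegaJStatement)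
    (hp : p.Prime) (hp2 : 2 ≠ p)
    {τ₀ : Gal} (hgood : IsGoodTau p 2 τ₀)
    (hF : F ≤ eis p S 2) (hle : F' ≤ F) (hst' : IsStable p F') (hst : IsStable p F)
    (hidx : F'.relIndex F = 2) (htriv : ∀ σ : Gal, ∀ f ∈ F, σ • f - f ∈ F') :
    StepBound p 2 (cocImage p S 2 complexConjugation) (cocImage p S 2 τ₀) F' F := by
  have hr : (2 : ℕ).Prime := Nat.prime_two
  have hFt : F ≤ tors p 2 := hF.trans (eis_le_tors_h322 S 2)
  obtain ⟨e, heF, he⟩ := exists_gen_of_relIndex hr hidx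
  have hre : 2 • e ∈ F' := by
    rw [mem_tors_iff.mp (hFt heF)]; exact F'.zero_mem
  have hact : ∀ σ : GQ, σ • e - e ∈ F' := fun σ => htriv σ e heF
  have hstab : ∀ σ : GQ, ∀ x ∈ F', σ • x ∈ F' := hst'
  -- the primitive square root of unity
  have hζ : IsPrimitiveRoot (-1 : Qb) 2 := IsPrimitiveRoot.neg_one 0 (by norm_num)
  have hω : ∀ (σ : Gal) (k : ℕ), σ (-1 : Qb) = (-1 : Qb) ^ k → ∀ f ∈ F, σ • f - k • f ∈ F' := by
    intro σ k hk f hf
    have hodd : Odd k := by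
      rw [map_neg, map_one] at hk
      by_contra hnot
      rw [Nat.not_odd_iff_even] at hnot
      rw [hnot.neg_one_pow] at hk
      norm_num at hk
    obtain ⟨j, rfl⟩ := hodd
    have h2f : 2 • f = 0 := mem_tors_iff.mp (hFt hf)
    have e1 : σ • f - (2 * j + 1) • f = σ • f - f := by
      rw [add_smul, one_smul, mul_comm, mul_smul, h2f, smul_zero, zero_add]
    rw [e1]
    exact htriv σ f hf
  -- the local conditions away from `p`
  have hY : ∀ y ∈ sel p 2 F, ∃ f : GQ → ZMod 2, HasCoord 2 F' e y f ∧ HasLevel y ∧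
      ∀ ℓ : ℕ, ℓ.Prime → ℓ ≠ p → KumDivAt 2 (-1 : Qb) f ℓ := by
    intro y hy
    obtain ⟨f, hf⟩ := exists_hasCoord hr hidx heF he hre hy
    refine ⟨f, hf, hasLevel_jzero y, fun ℓ hℓ hℓp => ?_⟩
    by_cases hℓr : ℓ = 2
    · subst hℓr
      exact coord_kumDivAt_of_peu hPw hp hr hp2 hle hFt hst' hst hidx hζ hω heF he hre hy hf
    · exact coord_kumDivAt_of_g3 hG3 hp hr he hre hy hf hζ hℓ hℓp hℓr
  have hH : ∀ w ∈ sel p 2 F, KumIn F' w → w ∈ sel p 2 F' ⊔ F :=
    fun w hw hk => mem_sup_of_kumIn hw hk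
  -- the local condition at `p`
  have hYp : F ⊓ cocImage p S 2 τ₀ ≤ F' → ∀ y ∈ sel p 2 F, ∀ f : GQ → ZMod 2,
      HasCoord 2 F' e y f → KumDivAt 2 (-1 : Qb) f p :=
    fun hU y hy f hf => hgood.kum _ hζ f (coord_eq_zero_of_inf_le hr hF he hre hU hy hf)
  -- the condition at the real place
  have hYc : F ⊓ cocImage p S 2 complexConjugation ≤ F' → ∀ y ∈ sel p 2 F,
      ∀ f : GQ → ZMod 2, HasCoord 2 F' e y f → f complexConjugation = 0 :=
    fun hK y hy f hf => coord_eq_zero_of_inf_le hr hF he hre hK hy hf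
  have hg : fixIndex p 2 F' F = 2 := fixIndex_eq_of_triv hFt hidx htriv
  have h4 : selIndex p 2 F' F ≠ 0 ∧ selIndex p 2 F' F ≤ 4 :=
    piece_relIndex_le_four hp hζ hstab he hre hact (sel p 2 F) (sel p 2 F' ⊔ F) hY hH
  refine ⟨h4.1, fun hK hU => ?_, fun hK _ => ?_, fun _ hU => ?_, fun _ _ => ?_⟩
  · -- positive, unramified everywhere
    have h1 : selIndex p 2 F' F = 1 := by
      refine selIndex_eq_one_of_le ?_
      refine piece_le_two hζ hstab he hre hact (sel p 2 F) (sel p 2 F' ⊔ F)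
        (fun y hy => ?_) hH
      obtain ⟨f, hf, hl, hd⟩ := hY y hy
      refine ⟨f, hf, hl, hYc hK y hy f hf, fun ℓ hℓ => ?_⟩
      by_cases hℓp : ℓ = p
      · subst hℓp
        exact hYp hU y hy f hf
      · exact hd ℓ hℓ hℓp
    rw [h1, hg]
  · -- positive
    rw [hg]
    refine (piece_relIndex_le_two_pos hp hζ hstab he hre hact (sel p 2 F) (sel p 2 F' ⊔ F)
      (fun y hy => ?_) hH).2
    obtain ⟨f, hf, hl, hd⟩ := hY y hy
    exact ⟨f, hf, hl, hYc hK y hy f hf, hd⟩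
  · -- unramified everywhere
    rw [hg]
    refine (piece_relIndex_le_two_unr hζ hstab he hre hact (sel p 2 F) (sel p 2 F' ⊔ F)
      (fun y hy => ?_) hH).2
    obtain ⟨f, hf, hl, hd⟩ := hY y hy
    refine ⟨f, hf, hl, fun ℓ hℓ => ?_⟩
    by_cases hℓp : ℓ = p
    · subst hℓp
      exact hYp hU y hy f hf
    · exact hd ℓ hℓ hℓp
  · rw [hg]
    exact h4.2

end Cases

/-- **STEP**: the step bounds for all Eisenstein pieces, from G3 and PEU. -/
theorem step_of_leaves (hG3 : G3Statement) (hP1 : Peu1JStatement)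
    (hPw : PeuOmegaJStatement) : StepStatement := by
  intro p _ hp S r hr hrdvd
  have hp1 : 0 < p - 1 := Nat.sub_pos_of_lt hp.one_lt
  have hrp : r ≠ p := by
    intro h
    have := Nat.le_of_dvd hp1 hrdvd
    omega
  obtain ⟨A, hA⟩ := Fermat.Agent.S54.exists_valuationSubring_liesOver p hp
  obtain ⟨τ₀, hτ₀, hgood⟩ := exists_isGoodTau hp hr hrp A hA
  refine ⟨A, hA, τ₀, hτ₀, fun F' F hF hpiece => ?_⟩
  obtain ⟨hle, hst', hst, hidx, htype⟩ := hpiece
  by_cases hr2 : r = 2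
  · subst hr2
    have htriv : ∀ σ : Gal, ∀ f ∈ F, σ • f - f ∈ F' := by
      rcases htype with h | ⟨ζ, hζ, hω⟩
      · exact h
      · intro σ f hf
        have h1 : σ ζ = ζ ^ 1 := by
          rw [pow_one]
          have hζ2 : ζ = -1 := by
            have := hζ.eq_neg_one_of_two_right
            exact this
          rw [hζ2, map_neg, map_one]
        have := hω σ 1 h1 f hf
        rwa [one_smul] at this
    exact stepBound_two hG3 hPw hp hrp hgood hF hle hst' hst hidx htriv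
  · rcases htype with htriv | ⟨ζ, hζ, hω⟩
    · exact stepBound_triv_odd hG3 hP1 hp hr hr2 hrp hgood _ hF hle hst' hst hidx htriv
    · exact stepBound_tw_odd hG3 hPw hp hr hr2 hrp hgood hF hle hst' hst hidx hζ hω

end Fermat.Agent.S15.H322
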