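import Fermat.Agent.S15.H975.DescSpec2
import Fermat.Agent.S15.H322.BasePiece
import Fermat.Agent.S17.H126.StabilizerOpen

/-!
# Row S15 — DESC leaf STEP, part 1 (helper322): coordinates on an Eisenstein piece

Frozen skeleton: `Fermat/Agent/S15/H975/DescSpec.lean`, `DescSpec2.lean` (`StepStatement`).
For an Eisenstein piece `F' ≤ F ≤ J₀(p)[r]` (`IsEisPiece`), `e ∈ F`, `e ∉ F'`:

* `exists_gen_of_relIndex`   : such an `e` exists;
* `exists_coeff_of_relIndex` : every `x ∈ F` is `≡ n e mod F'` for some `n : ZMod r`;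
* `exists_hasCoord`          : every `y ∈ Y(F)` has a coordinate (`H322.HasCoord`);
* `hasLevel_jzero`           : every point of `J₀(p)` has finite level (`S17.H126`);
* `HasCoord.eq_zero_of_sub_mem` : `τ y - y ∈ F'` ⟹ the coordinate vanishes at `τ`;
* `fixIndex_ne_zero`, `fixIndex_eq_of_triv` : `g ≥ 1`, and `g = r` for a trivial action;
* `selIndex_*`               : the index `s = [Y(F) : Y(F') + F]` from a bound on
                               `{w ∈ Y(F) | KumIn F' w}`.
-/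

set_option autoImplicit false
set_option linter.unusedSectionVars false
set_option linter.style.haveILetI false

namespace Fermat.Agent.S15.H322

open Fermat.Agent.S56 Fermat.Agent.S56.H786 Fermat.Agent.S15.H975 ModularCurve

section Abstract

variable {J : Type*} [AddCommGroup J] [DistribMulAction GQ J]

/-- A subgroup of prime relative index is proper. -/
theorem exists_gen_of_relIndex {F' F : AddSubgroup J} {r : ℕ} (hr : r.Prime)
    (hidx : F'.relIndex F = r) : ∃ e ∈ F, e ∉ F' := by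
  by_contra hcon
  push Not at hcon
  have hle : F ≤ F' := fun x hx => hcon x hx
  rw [AddSubgroup.relIndex_eq_one.mpr hle] at hidx
  exact hr.one_lt.ne hidx

/-- In a piece of prime index every element is a multiple of the generator. -/
theorem exists_coeff_of_relIndex {F' F : AddSubgroup J} {r : ℕ} (hr : r.Prime)
    (hidx : F'.relIndex F = r) {e : J} (heF : e ∈ F) (he : e ∉ F') (hre : r • e ∈ F')
    {x : J} (hx : x ∈ F) : ∃ n : ZMod r, x - n.val • e ∈ F' := by
  haveI : Fact r.Prime := ⟨hr⟩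
  haveI : NeZero r := ⟨hr.ne_zero⟩
  have hcard : Nat.card (F ⧸ F'.addSubgroupOf F) = r := hidx
  set ebar : F ⧸ F'.addSubgroupOf F := QuotientAddGroup.mk (⟨e, heF⟩ : F) with hebar
  have hebar0 : ebar ≠ 0 := by
    intro h0
    rw [hebar, QuotientAddGroup.eq_zero_iff] at h0
    exact he h0
  have htop := zmultiples_eq_top_of_prime_card hcard hebar0
  have hmem : (QuotientAddGroup.mk (⟨x, hx⟩ : F) : F ⧸ F'.addSubgroupOf F) ∈
      AddSubgroup.zmultiples ebar := by
    rw [htop]; exact AddSubgroup.mem_top _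
  obtain ⟨k, hk⟩ := AddSubgroup.mem_zmultiples_iff.mp hmem
  have h1 : x - k • e ∈ F' := by
    have h2 : (QuotientAddGroup.mk (k • (⟨e, heF⟩ : F)) : F ⧸ F'.addSubgroupOf F) =
        QuotientAddGroup.mk (⟨x, hx⟩ : F) := by
      rw [← hk]; rfl
    rw [QuotientAddGroup.eq] at h2
    have h3 : ((-(k • (⟨e, heF⟩ : F)) + (⟨x, hx⟩ : F) : F) : J) ∈ F' := h2
    have h4 : ((-(k • (⟨e, heF⟩ : F)) + (⟨x, hx⟩ : F) : F) : J) = x - k • e := by
      push_cast
      abel
    rwa [h4] at h3
  refine ⟨(k : ZMod r), ?_⟩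
  have h5 := val_smul_sub_zsmul_mem hr he hre (k : ZMod r) k rfl
  have h6 : x - ((k : ZMod r)).val • e = (x - k • e) - (((k : ZMod r)).val • e - k • e) := by
    abel
  rw [h6]
  exact F'.sub_mem h1 h5

end Abstract

section Coord

variable {J : Type*} [AddCommGroup J] [DistribMulAction GQ J]
variable {r : ℕ} {F' : AddSubgroup J} {e : J}

/-- If `τ y - y ∈ F'`, the coordinate of `y` vanishes at `τ`. -/
theorem HasCoord.eq_zero_of_sub_mem (hr : r.Prime) (he : e ∉ F') (hre : r • e ∈ F') {y : J}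
    {f : GQ → ZMod r} (hf : HasCoord r F' e y f) {τ : GQ} (hy : τ • y - y ∈ F') :
    f τ = 0 := by
  haveI : NeZero r := ⟨hr.ne_zero⟩
  have h1 := F'.sub_mem hy (hf τ)
  have h2 : τ • y - y - (τ • y - y - (f τ).val • e) = (((f τ).val : ℤ)) • e := by
    rw [natCast_zsmul]; abel
  rw [h2, zsmul_mem_iff hr he hre] at h1
  rwa [Int.cast_natCast, ZMod.natCast_zmod_val] at h1

/-- If the coordinate of `y` vanishes at `τ`, then `τ y - y ∈ F'`. -/
theorem HasCoord.sub_mem_of_eq_zero [NeZero r] {y : J}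
    {f : GQ → ZMod r} (hf : HasCoord r F' e y f) {τ : GQ} (h0 : f τ = 0) :
    τ • y - y ∈ F' := by
  have := hf τ
  rwa [h0, ZMod.val_zero, zero_smul, sub_zero] at this

/-- If the coordinate of `y` vanishes identically, all Kummer values of `y` lie in `F'`. -/
theorem HasCoord.kumIn_of_eq_zero [NeZero r] {y : J}
    {f : GQ → ZMod r} (hf : HasCoord r F' e y f) (h0 : ∀ σ, f σ = 0) : KumIn F' y :=
  fun σ => hf.sub_mem_of_eq_zero (h0 σ)

end Coord

section JZero

variable {p : ℕ} [NeZero p]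

/-- Every point of `J₀(p)` has finite level. -/
theorem hasLevel_jzero (y : JZero p) : HasLevel y :=
  Fermat.Agent.S17.H126.stabilizer_open p y

theorem sel_mono (r : ℕ) {F F₂ : AddSubgroup (JZero p)} (h : F ≤ F₂) :
    sel p r F ≤ sel p r F₂ :=
  fun _ hy => ⟨hy.1, fun σ => h (hy.2 σ)⟩

theorem mem_sel_iff {r : ℕ} {F : AddSubgroup (JZero p)} {y : JZero p} :
    y ∈ sel p r F ↔ (∀ σ : Gal, σ • (r • y) = r • y) ∧ ∀ σ : Gal, σ • y - y ∈ F :=
  Iff.rfl

theorem mem_tors_iff {r : ℕ} {w : JZero p} : w ∈ tors p r ↔ r • w = 0 := Iff.rfl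

theorem eis_le_tors_h322 (S : Set ℕ) (r : ℕ) : eis p S r ≤ tors p r := fun _ hw => hw.1

/-- A Galois-stable subgroup of `J[r]` lies in its own Selmer group. -/
theorem le_sel_of_stable {r : ℕ} {F : AddSubgroup (JZero p)} (hst : IsStable p F)
    (hF : F ≤ tors p r) : F ≤ sel p r F := by
  intro f hf
  refine ⟨fun σ => ?_, fun σ => F.sub_mem (hst σ f hf) hf⟩
  rw [mem_tors_iff.mp (hF hf)]
  exact smul_zero (M := Gal) (A := JZero p) σ

/-- A subgroup `F ≤ J[r]` on which the Galois group acts trivially modulo `F'` lies in `Y(F')`. -/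
theorem le_sel_of_triv {r : ℕ} {F' F : AddSubgroup (JZero p)} (hF : F ≤ tors p r)
    (htriv : ∀ σ : Gal, ∀ f ∈ F, σ • f - f ∈ F') : F ≤ sel p r F' := by
  intro f hf
  refine ⟨fun σ => ?_, fun σ => htriv σ f hf⟩
  rw [mem_tors_iff.mp (hF hf)]
  exact smul_zero (M := Gal) (A := JZero p) σ

/-- Every point of `Y(F)` has a coordinate on the piece `F / F'`. -/
theorem exists_hasCoord {r : ℕ} (hr : r.Prime) {F' F : AddSubgroup (JZero p)}
    (hidx : F'.relIndex F = r) {e : JZero p} (heF : e ∈ F) (he : e ∉ F') (hre : r • e ∈ F')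
    {y : JZero p} (hy : y ∈ sel p r F) : ∃ f : GQ → ZMod r, HasCoord r F' e y f := by
  have h : ∀ σ : GQ, ∃ n : ZMod r, σ • y - y - n.val • e ∈ F' := fun σ =>
    exists_coeff_of_relIndex hr hidx heF he hre (hy.2 σ)
  choose f hf using h
  exact ⟨f, hf⟩

/-- `g = [F ∩ Y(F') : F'] ≠ 0` and divides `r`. -/
theorem fixIndex_dvd {r : ℕ} {F' F : AddSubgroup (JZero p)} (hle : F' ≤ F)
    (hst : IsStable p F') (hF : F ≤ tors p r) (hidx : F'.relIndex F = r) :
    fixIndex p r F' F ∣ r := by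
  have h1 : F' ≤ F ⊓ sel p r F' := le_inf hle (le_sel_of_stable hst (hle.trans hF))
  have h2 := AddSubgroup.relIndex_mul_relIndex F' (F ⊓ sel p r F') F h1 inf_le_left
  rw [hidx] at h2
  exact Dvd.intro _ h2

theorem fixIndex_pos {r : ℕ} (hr : r.Prime) {F' F : AddSubgroup (JZero p)} (hle : F' ≤ F)
    (hst : IsStable p F') (hF : F ≤ tors p r) (hidx : F'.relIndex F = r) :
    1 ≤ fixIndex p r F' F :=
  Nat.pos_of_dvd_of_pos (fixIndex_dvd hle hst hF hidx) hr.pos

/-- `g = r` for a piece with trivial action. -/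
theorem fixIndex_eq_of_triv {r : ℕ} {F' F : AddSubgroup (JZero p)} (hF : F ≤ tors p r)
    (hidx : F'.relIndex F = r) (htriv : ∀ σ : Gal, ∀ f ∈ F, σ • f - f ∈ F') :
    fixIndex p r F' F = r := by
  have h1 : F ⊓ sel p r F' = F := inf_eq_left.mpr (le_sel_of_triv hF htriv)
  show F'.relIndex (F ⊓ sel p r F') = r
  rw [h1, hidx]

/-- The points of `Y(F)` with Kummer values in `F'` lie in `Y(F') + F`. -/
theorem mem_sup_of_kumIn {r : ℕ} {F' F : AddSubgroup (JZero p)} {w : JZero p}
    (hw : w ∈ sel p r F) (hk : KumIn F' w) : w ∈ sel p r F' ⊔ F :=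
  AddSubgroup.mem_sup_left ⟨hw.1, hk⟩

/-- `s = 1` as soon as `Y(F) ≤ Y(F') + F`. -/
theorem selIndex_eq_one_of_le {r : ℕ} {F' F : AddSubgroup (JZero p)}
    (h : sel p r F ≤ sel p r F' ⊔ F) : selIndex p r F' F = 1 :=
  AddSubgroup.relIndex_eq_one.mpr h

end JZero

end Fermat.Agent.S15.H322
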